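import Mathlib
import Fermat.Agent.S48.B.B1.Main

/-!
# PROJECT R (row 37 by S43), gate G2* / LG1Hyp, producer (W): the Fricke automorphism `w_r`.
# File 7 (helper16): descent of membership, `ℚ̄((q)) ∩ ℂ·F1 M = ℚ̄·F1 M`

`mem_F1Bar_of_coeffMap_mem` : a series `y ∈ ℚ̄((q))` whose image in `ℂ((q))` along `ι : ℚ̄ →+* ℂ`
is (the `q`-expansion of) a modular function on `Γ₁(M)` lies in `F1Bar M = ℚ̄(X₁(M))`.

Proof: main's algebraic core `S30/Analytic/RepFieldEq.mem_adjoin_pair_of_relations` over `ℚ̄`: the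
field `S` of all such `y` contains `j` and a primitive element `g` of `ℚ̄(X₁(M))/ℚ̄(j)`; every element
of `S` satisfies a relation over `ℚ̄[j]` of degree `≤ [SL₂(ℤ) : ±Γ₁(M)]` (the relation over `ℂ[j]` of
`RepEq1.exists_relation_of_mem_repField1`, descended by `S24/LinDisjoint.exists_rel_over_base'`),
and `g` satisfies none of smaller degree.
-/

set_option autoImplicit false
set_option linter.unusedSectionVars false

noncomputable section

namespace Fermat.Agent.S43.LG1.Wr.MemDescent

open ModularCurve IntermediateField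
open Fermat.Agent.S24.LmapJ Fermat.Agent.S30.Analytic.RepFieldEq
open Fermat.Agent.S48.B.Defs.Model
open Fermat.Agent.S48.B.B1.Seams hiding ofPS
open Fermat.Agent.S48.B.B1.RepHom1 Fermat.Agent.S48.B.B1.RepEq1

local notation "Kb" => AlgebraicClosure ℚ

variable (M : ℕ) [NeZero M]

/-- the field of the series over `ℚ̄` that become modular functions on `Γ₁(M)` over `ℂ` -/
def preF (ι : Kb →+* ℂ) : IntermediateField Kb (LaurentSeries Kb) :=
  ((laurentBaseChange ℂ (F1 M)).toSubfield.comap (coeffMap ι : LaurentSeries Kb →+* LaurentSeries ℂ)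
    ).toIntermediateField (fun c => by
      rw [Subfield.mem_comap]
      have : coeffMap ι (algebraMap Kb (LaurentSeries Kb) c) =
          algebraMap ℂ (LaurentSeries ℂ) (ι c) := by
        rw [algebraMap_laurentSeries_eq_single, algebraMap_laurentSeries_eq_single,
          coeffMap_single]
      rw [this]
      exact (laurentBaseChange ℂ (F1 M)).algebraMap_mem _)

theorem mem_preF {ι : Kb →+* ℂ} {y : LaurentSeries Kb} :
    y ∈ preF M ι ↔ coeffMap ι y ∈ laurentBaseChange ℂ (F1 M) := Iff.rfl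

/-- **descent of membership** -/
theorem mem_F1Bar_of_coeffMap_mem (ι : Kb →+* ℂ) {y : LaurentSeries Kb}
    (h : coeffMap ι y ∈ laurentBaseChange ℂ (F1 M)) : y ∈ F1Bar M := by
  have hdeg := Fermat.Agent.S48.B.B1.Main.deg1 M
  have hle := Fermat.Agent.S48.B.B1.Main.repLe M
  obtain ⟨g, hg⟩ := exists_lower_bar M hdeg
  have hxS : coeffEmb Kb jq ∈ preF M ι := by
    rw [mem_preF, coeffMap_coeffEmb_jq]
    exact jC_mem_FC1 M
  have hgS : (g : LaurentSeries Kb) ∈ preF M ι := by
    rw [mem_preF]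
    exact coeffMap_mem_laurentBaseChange_of_embedding ι g.2
  have hub : ∀ r ∈ preF M ι, ∃ P : Polynomial (Polynomial Kb), P ≠ 0 ∧
      P.natDegree ≤ Nat.card (Q1 M) ∧
      Polynomial.eval₂ (Polynomial.aeval (coeffEmb Kb jq) :
        Polynomial Kb →ₐ[Kb] LaurentSeries Kb).toRingHom r P = 0 := by
    intro r hr
    obtain ⟨P, hP0, hPd, hPr⟩ := exists_relation_of_mem_repField1 M (hle ((mem_preF M).mp hr))
    have h0 : P.eval₂ ((Polynomial.aeval (coeffMap ι (coeffEmb Kb jq) : LaurentSeries ℂ) :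
          Polynomial ℂ →ₐ[ℂ] LaurentSeries ℂ) : Polynomial ℂ →+* LaurentSeries ℂ)
          (coeffMap ι r : LaurentSeries ℂ) = 0 := by
      rw [coeffMap_coeffEmb_jq]
      exact hPr
    obtain ⟨Q, hQ0, hQd, hQ⟩ := Fermat.Agent.S24.LinDisjoint.exists_rel_over_base' ι
      (coeffEmb Kb jq) r P hP0 h0
    exact ⟨Q, hQ0, hQd.trans hPd, hQ⟩
  have h1 : y ∈ IntermediateField.adjoin Kb ({coeffEmb Kb jq, (g : LaurentSeries Kb)} :
      Set (LaurentSeries Kb)) :=
    mem_adjoin_pair_of_relations (preF M ι) (coeffEmb Kb jq) (g : LaurentSeries Kb) hxS hgS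
      (Fermat.Agent.S24.DegreeAlg.transcendental_coeffEmb_jq Kb) (Nat.card (Q1 M)) hub
      (fun P hP0 hPr => hg P hP0 hPr) ((mem_preF M).mpr h)
  have h2 : IntermediateField.adjoin Kb ({coeffEmb Kb jq, (g : LaurentSeries Kb)} :
      Set (LaurentSeries Kb)) ≤ F1Bar M := by
    rw [IntermediateField.adjoin_le_iff]
    rintro z (rfl | rfl)
    · have := (jgen1 M).2
      rwa [coe_jgen1] at this
    · exact g.2
  exact h2 h1

end Fermat.Agent.S43.LG1.Wr.MemDescent

end
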