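import Mathlib
import Fermat.Agent.S48.B.B1.Wp.QExp
import Fermat.Agent.S48.B.B1.RepAll1

/-!
# PROJECT R (row 37 by S43), gate G2* / LG1Hyp, producer (W): the Fricke automorphism `w_r`.
# File 8 (helper16): the expansion of `w_r h_a` over an arbitrary field

`w_r h_a = (E₄E₆/Δ)(q^N) · (12 X(ζ^a, q^N) + 1)` with `ζ` an `r`-th root of unity: the coefficients
are polynomial in `ζ^{± 1}` (plus `ζ/(1-ζ)²` in the constant term), so the series makes sense over
every field `K` with a chosen `z ∈ K` (`z = ζ₀^a`).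

* `wpCoeffK K M R z n`   : `Wp/QExp.wpCoeff M R S n` with `e(S/M)` replaced by `z`
  (`wpCoeff_eq_wpCoeffK`), functorial in `K` (`map_wpCoeffK`), depending on `R` only modulo `M`
  (`wpCoeffK_congr`);
* `muSeries K N r a z`   : the power series `∑ wpCoeffK K (N r) (a r) (z^a) (r n) q^n`;
* `frickeMu K N r a z`   : `(E₄E₆/Δ)(q^N) · muSeries` in `K((q))`, with `coeffMap_frickeMu`;
* `muSeries_unit_mul`    : for `d ≡ 1 mod N` and `z^r = 1`,
  `muSeries (d a) z = muSeries a (z^d)` : the Galois action on the coefficients IS the `r`-part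
  diamond action on the index;
* `exists_preimage_root` : every root of unity of `ℂ` is in the image of `ℚ̄`;
* `zetaN_mul_eq`         : `e(a N m / (N r)) = e(m/r)^a`.
-/

set_option autoImplicit false

noncomputable section

namespace Fermat.Agent.S43.LG1.Wr.CoeffK

open ModularCurve Fermat.Agent.S48.B.Defs.Model
open Fermat.Agent.S48.Eis1.KronZ
open Fermat.Agent.S48.B.B1.Wp.Holo Fermat.Agent.S48.B.B1.Wp.QExp Fermat.Agent.S48.B.B1.Wp.DKron

local notation "Kb" => AlgebraicClosure ℚ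

/-! ### The coefficients over a field -/

/-- the coefficient `wpCoeff M R S n` with the root of unity `e(S/M)` replaced by `z` -/
def wpCoeffK (K : Type*) [Field K] (M : ℕ) (R : ℤ) (z : K) (n : ℕ) : K :=
  if n = 0 then (if (M : ℤ) ∣ R then 12 * (z / (1 - z) ^ 2) + 1 else 1)
  else 12 * ∑ d ∈ n.divisors, ((n / d : ℕ) : K) *
    ((if ((d : ℕ) : ZMod M) = (R : ZMod M) then z ^ (n / d) else 0)
      + (if ((d : ℕ) : ZMod M) = -(R : ZMod M) then z⁻¹ ^ (n / d) else 0)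
      - 2 * (if ((d : ℕ) : ZMod M) = 0 then 1 else 0))

theorem wpCoeff_eq_wpCoeffK (M : ℕ) (R S : ℤ) (n : ℕ) :
    wpCoeff M R S n = wpCoeffK ℂ M R (zetaN M S) n := rfl

theorem map_wpCoeffK {K L : Type*} [Field K] [Field L] (f : K →+* L) (M : ℕ) (R : ℤ) (z : K)
    (n : ℕ) : f (wpCoeffK K M R z n) = wpCoeffK L M R (f z) n := by
  unfold wpCoeffK
  by_cases h0 : n = 0
  · rw [if_pos h0, if_pos h0]
    by_cases h1 : (M : ℤ) ∣ R
    · rw [if_pos h1, if_pos h1]
      rw [map_add, map_mul, map_ofNat, map_div₀, map_pow, map_sub, map_one]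
    · rw [if_neg h1, if_neg h1, map_one]
  · rw [if_neg h0, if_neg h0, map_mul, map_sum, map_ofNat]
    congr 1
    refine Finset.sum_congr rfl ?_
    intro d _
    rw [map_mul, map_natCast, map_sub, map_add, map_mul, map_ofNat, apply_ite f, apply_ite f,
      apply_ite f, map_pow, map_pow, map_inv₀, map_zero, map_one]

theorem wpCoeffK_congr (K : Type*) [Field K] {M : ℕ} {R R' : ℤ}
    (h : (R : ZMod M) = (R' : ZMod M)) (z : K) (n : ℕ) :
    wpCoeffK K M R z n = wpCoeffK K M R' z n := by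
  have hdvd : ((M : ℤ) ∣ R) ↔ ((M : ℤ) ∣ R') := by
    rw [← CharP.intCast_eq_zero_iff (ZMod M) M R, ← CharP.intCast_eq_zero_iff (ZMod M) M R', h]
  unfold wpCoeffK
  simp only [h, hdvd]

/-! ### The series -/

section Series

variable (K : Type*) [Field K] (N r : ℕ)

/-- the power series part of `w_r h_a`, with `ζ₀ = z` -/
def muSeries (a : ZMod (N * r)) (z : K) : PowerSeries K :=
  PowerSeries.mk fun n => wpCoeffK K (N * r) (((a.val : ℕ) : ℤ) * r) (z ^ a.val) (r * n)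

theorem coeff_muSeries (a : ZMod (N * r)) (z : K) (n : ℕ) :
    PowerSeries.coeff n (muSeries K N r a z) =
      wpCoeffK K (N * r) (((a.val : ℕ) : ℤ) * r) (z ^ a.val) (r * n) := by
  unfold muSeries
  rw [PowerSeries.coeff_mk]

variable {K} in
theorem map_muSeries {L : Type*} [Field L] (f : K →+* L) (a : ZMod (N * r)) (z : K) :
    (muSeries K N r a z).map f = muSeries L N r a (f z) := by
  ext n
  rw [PowerSeries.coeff_map, coeff_muSeries, coeff_muSeries, map_wpCoeffK, map_pow]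

variable [NeZero N]

/-- **the series `w_r h_a`** over `K`, `ζ₀ = z` -/
def frickeMu (a : ZMod (N * r)) (z : K) : LaurentSeries K :=
  qExpand K N (wNorm K) * HahnSeries.ofPowerSeries ℤ K (muSeries K N r a z)

variable {K} in
theorem coeffMap_frickeMu {L : Type*} [Field L] (f : K →+* L) (a : ZMod (N * r)) (z : K) :
    coeffMap f (frickeMu K N r a z) = frickeMu L N r a (f z) := by
  unfold frickeMu
  rw [map_mul, Fermat.Agent.S28.PrimeCaseForm.coeffMap_qExpand,
    Fermat.Agent.S48.B.B1.RepAll1.coeffMap_wNorm,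
    coeffMap_ofPowerSeries, map_muSeries]

end Series

/-! ### The `r`-part units -/

section RPart

variable {N r : ℕ} [NeZero N] [NeZero r]

/-- a unit `d ≡ 1 mod N` of `ℤ/N r` is `1 + N t` -/
theorem exists_eq_one_add_mul {d : ZMod (N * r)} (hd : ((d.val : ℕ) : ZMod N) = 1) :
    ∃ t : ZMod (N * r), d = 1 + (N : ZMod (N * r)) * t := by
  have : NeZero (N * r) := ⟨Nat.mul_ne_zero (NeZero.ne N) (NeZero.ne r)⟩
  have h1 : (((d.val : ℕ) : ℤ) : ZMod N) = ((1 : ℤ) : ZMod N) := by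
    rw [Int.cast_natCast, hd, Int.cast_one]
  rw [ZMod.intCast_eq_intCast_iff_dvd_sub] at h1
  obtain ⟨t, ht⟩ := h1
  refine ⟨-(t : ZMod (N * r)), ?_⟩
  have h2 : ((d.val : ℕ) : ℤ) = 1 - (N : ℤ) * t := by linarith
  have h3 : d = (((d.val : ℕ) : ℤ) : ZMod (N * r)) := by
    rw [Int.cast_natCast, ZMod.natCast_zmod_val]
  rw [h3, h2]
  push_cast
  ring

theorem muSeries_unit_mul (K : Type*) [Field K] {d : ZMod (N * r)}
    (hd : ((d.val : ℕ) : ZMod N) = 1) {z : K} (hz : z ^ r = 1) (a : ZMod (N * r)) :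
    muSeries K N r (d * a) z = muSeries K N r a (z ^ d.val) := by
  have : NeZero (N * r) := ⟨Nat.mul_ne_zero (NeZero.ne N) (NeZero.ne r)⟩
  obtain ⟨t, ht⟩ := exists_eq_one_add_mul hd
  ext n
  rw [coeff_muSeries, coeff_muSeries]
  have hpow : z ^ (d * a).val = (z ^ d.val) ^ a.val := by
    rw [← pow_mul, ZMod.val_mul]
    refine pow_eq_pow_of_modEq ?_ hz
    exact (Nat.mod_modEq _ _).of_dvd (Dvd.intro_left N rfl)
  have hR : (((((d * a).val : ℕ) : ℤ) * r : ℤ) : ZMod (N * r)) =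
      (((((a.val : ℕ) : ℤ) * r : ℤ)) : ZMod (N * r)) := by
    push_cast
    rw [ZMod.natCast_zmod_val, ZMod.natCast_zmod_val, ht]
    have h0 : (N : ZMod (N * r)) * (r : ZMod (N * r)) = 0 := by
      rw [← Nat.cast_mul, ZMod.natCast_self]
    linear_combination (t * a) * h0
  rw [hpow, wpCoeffK_congr K hR]

end RPart

/-! ### Roots of unity -/

theorem exists_preimage_root (ι : Kb →+* ℂ) {r : ℕ} (hr : r ≠ 0) (ζ : ℂ) (hζ : ζ ^ r = 1) :
    ∃ z : Kb, ι z = ζ := by
  have : NeZero r := ⟨hr⟩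
  have : NeZero ((r : ℕ) : Kb) := ⟨Nat.cast_ne_zero.mpr hr⟩
  obtain ⟨ζ0, h0⟩ := HasEnoughRootsOfUnity.exists_primitiveRoot Kb r
  have h1 : IsPrimitiveRoot (ι ζ0) r := h0.map_of_injective ι.injective
  obtain ⟨i, -, hi⟩ := h1.eq_pow_of_pow_eq_one hζ
  exact ⟨ζ0 ^ i, by rw [map_pow, hi]⟩

theorem ee_nat_mul (n : ℕ) (z : ℂ) : ee ((n : ℂ) * z) = ee z ^ n := by
  unfold ee
  rw [← Complex.exp_nat_mul]
  congr 1
  ring

theorem ee_div_pow (m : ℤ) {r : ℕ} (hr : r ≠ 0) : ee ((m : ℂ) / (r : ℂ)) ^ r = 1 := by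
  have hr' : (r : ℂ) ≠ 0 := Nat.cast_ne_zero.mpr hr
  rw [← ee_nat_mul, mul_div_cancel₀ _ hr', ee_intCast]

theorem zetaN_mul_eq {N r : ℕ} (hN : N ≠ 0) (hr : r ≠ 0) (a : ℕ) (m : ℤ) :
    zetaN (N * r) ((a : ℤ) * N * m) = ee ((m : ℂ) / (r : ℂ)) ^ a := by
  have hN' : (N : ℂ) ≠ 0 := Nat.cast_ne_zero.mpr hN
  have hr' : (r : ℂ) ≠ 0 := Nat.cast_ne_zero.mpr hr
  unfold zetaN
  rw [← ee_nat_mul]
  congr 1
  push_cast
  field_simp

end Fermat.Agent.S43.LG1.Wr.CoeffK

end
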