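import Mathlib
import Fermat.Agent.S48.B.B1.Wp.Forms

/-!
# PROJECT R (row 37 by S43), gate G2* / LG1Hyp, producer (W): the Fricke automorphism `w_r`.
# File 5 (helper16): the `q`-expansion of the division values at the lattice `ℤ + N τ ℤ`, level `N r`

For `r ∣ R` and `(R, S) ≢ 0 mod N r` the function `τ ↦ wpTors (N r) R S (N τ)` is `1`-periodic and

`wpTors (N r) R S (N τ) = ∑ₙ wpCoeff (N r) R S (r n) qⁿ`

(from main's `Wp/QExp.hasSum_wpTors_scale` at `τ / r`: the coefficients of index prime to `r`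
vanish).
-/

set_option autoImplicit false
set_option linter.unusedSectionVars false

open Complex Filter Topology

open UpperHalfPlane hiding I

open scoped MatrixGroups ModularForm Manifold

noncomputable section

namespace Fermat.Agent.S43.LG1.Wr.FrickeExp

open Fermat.Agent.S48.Eis1.KronZ Fermat.Agent.S48.Eis1.KronTors
open Fermat.Agent.S48.B.B1.Wp.Tors Fermat.Agent.S48.B.B1.Wp.Holo Fermat.Agent.S48.B.B1.Wp.QExp

theorem natCast_ne_intCast_of_not_dvd {M r : ℕ} (hrM : r ∣ M) {R : ℤ} (hR : (r : ℤ) ∣ R) {d : ℕ}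
    (hd : ¬ r ∣ d) : ((d : ℕ) : ZMod M) ≠ ((R : ℤ) : ZMod M) := by
  intro h
  apply hd
  have h1 : (((d : ℕ) : ℤ) : ZMod M) = ((R : ℤ) : ZMod M) := by
    rw [Int.cast_natCast]
    exact h
  have h2 : (M : ℤ) ∣ R - d := (ZMod.intCast_eq_intCast_iff_dvd_sub _ _ M).mp h1
  have h3 : (r : ℤ) ∣ R - d := dvd_trans (Int.natCast_dvd_natCast.mpr hrM) h2
  have h4 : (r : ℤ) ∣ (d : ℤ) := by
    have := dvd_sub hR h3
    simpa using this
  exact Int.natCast_dvd_natCast.mp h4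

/-- the coefficients of index prime to `r` vanish when `r ∣ M` and `r ∣ R` -/
theorem wpCoeff_eq_zero_of_not_dvd {M r : ℕ} (hrM : r ∣ M) {R : ℤ} (hR : (r : ℤ) ∣ R) (S : ℤ)
    {n : ℕ} (hn : ¬ r ∣ n) : wpCoeff M R S n = 0 := by
  have hn0 : n ≠ 0 := by
    rintro rfl
    exact hn (dvd_zero r)
  unfold wpCoeff
  rw [if_neg hn0]
  have hz : ∀ d ∈ n.divisors, ((n / d : ℕ) : ℂ) *
      ((if ((d : ℕ) : ZMod M) = (R : ZMod M) then zetaN M S ^ (n / d) else 0)
        + (if ((d : ℕ) : ZMod M) = -(R : ZMod M) then (zetaN M S)⁻¹ ^ (n / d) else 0)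
        - 2 * (if ((d : ℕ) : ZMod M) = 0 then 1 else 0)) = 0 := by
    intro d hd
    have hdn : ¬ r ∣ d := fun h => hn (dvd_trans h (Nat.dvd_of_mem_divisors hd))
    have h1 := natCast_ne_intCast_of_not_dvd hrM hR hdn
    have h2 : ((d : ℕ) : ZMod M) ≠ -((R : ℤ) : ZMod M) := by
      have := natCast_ne_intCast_of_not_dvd hrM (dvd_neg.mpr hR) hdn
      rwa [Int.cast_neg] at this
    have h3 : ((d : ℕ) : ZMod M) ≠ 0 := by
      have := natCast_ne_intCast_of_not_dvd hrM (dvd_zero (r : ℤ)) hdn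
      rwa [Int.cast_zero] at this
    rw [if_neg h1, if_neg h2, if_neg h3]
    ring
  rw [Finset.sum_eq_zero hz, mul_zero]

/-- `τ / r` -/
def divH (r : ℕ) (hr : r ≠ 0) (τ : ℍ) : ℍ :=
  ⟨(τ : ℂ) / (r : ℂ), by
    have h1 : ((τ : ℂ) / (r : ℂ)).im = τ.im / (r : ℝ) := by
      rw [Complex.div_natCast_im]
      rfl
    rw [h1]
    exact div_pos τ.im_pos (Nat.cast_pos.mpr (Nat.pos_of_ne_zero hr))⟩

theorem coe_divH (r : ℕ) (hr : r ≠ 0) (τ : ℍ) : ((divH r hr τ : ℍ) : ℂ) = (τ : ℂ) / (r : ℂ) := rfl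

theorem scaleH_divH {N r : ℕ} (hN : N ≠ 0) (hr : r ≠ 0) (τ : ℍ) :
    scaleH (N * r) (Nat.mul_ne_zero hN hr) (divH r hr τ) = scaleH N hN τ := by
  apply UpperHalfPlane.ext
  rw [coe_scaleH, coe_scaleH, coe_divH]
  have : (r : ℂ) ≠ 0 := Nat.cast_ne_zero.mpr hr
  push_cast
  field_simp

theorem qParam_divH_pow (r : ℕ) (hr : r ≠ 0) (τ : ℍ) :
    Function.Periodic.qParam 1 ((divH r hr τ : ℍ) : ℂ) ^ r = Function.Periodic.qParam 1 (τ : ℂ) := by
  rw [coe_divH]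
  unfold Function.Periodic.qParam
  rw [← Complex.exp_nat_mul]
  congr 1
  have : (r : ℂ) ≠ 0 := Nat.cast_ne_zero.mpr hr
  field_simp

/-- **the `q`-expansion of the division values at the lattice `ℤ + N τ ℤ`** -/
theorem hasSum_wpTors_scale_div {N r : ℕ} (hN : N ≠ 0) (hr : r ≠ 0) {R S : ℤ}
    (h : Prim (N * r) R S) (hR : (r : ℤ) ∣ R) (τ : ℍ) :
    HasSum (fun n : ℕ => wpCoeff (N * r) R S (r * n) * Function.Periodic.qParam 1 (τ : ℂ) ^ n)
      (wpTors (N * r) R S (scaleH N hN τ)) := by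
  have h0 := hasSum_wpTors_scale (Nat.mul_ne_zero hN hr) h (divH r hr τ)
  rw [scaleH_divH hN hr τ] at h0
  have hinj : Function.Injective (fun n : ℕ => r * n) :=
    fun a b hab => Nat.eq_of_mul_eq_mul_left (Nat.pos_of_ne_zero hr) hab
  have hsupp : ∀ x ∉ Set.range (fun n : ℕ => r * n),
      wpCoeff (N * r) R S x * Function.Periodic.qParam 1 ((divH r hr τ : ℍ) : ℂ) ^ x = 0 := by
    intro x hx
    have hnd : ¬ r ∣ x := fun ⟨c, hc⟩ => hx ⟨c, hc.symm⟩
    rw [wpCoeff_eq_zero_of_not_dvd (Dvd.intro_left N rfl) hR S hnd, zero_mul]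
  have h1 := (hinj.hasSum_iff hsupp).mpr h0
  refine h1.congr_fun ?_
  intro n
  show wpCoeff (N * r) R S (r * n) * Function.Periodic.qParam 1 (τ : ℂ) ^ n =
    wpCoeff (N * r) R S (r * n) * Function.Periodic.qParam 1 ((divH r hr τ : ℍ) : ℂ) ^ (r * n)
  rw [pow_mul, qParam_divH_pow]

/-- **the `q`-expansion as a power series** -/
theorem qExpansion_wpTors_scale_div {N r : ℕ} (hN : N ≠ 0) (hr : r ≠ 0) {R S : ℤ}
    (h : Prim (N * r) R S) (hR : (r : ℤ) ∣ R) :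
    qExpansion 1 (fun τ : ℍ => wpTors (N * r) R S (scaleH N hN τ)) =
      PowerSeries.mk (fun n => wpCoeff (N * r) R S (r * n)) :=
  qExpansion_eq_of_hasSum (mdiff_scale hN (mdiff_wpTors (Nat.mul_ne_zero hN hr) h))
    (hasSum_wpTors_scale_div hN hr h hR)

end Fermat.Agent.S43.LG1.Wr.FrickeExp

end
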