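import Mathlib
import Fermat.Agent.S48.B.B1.RepHom1

/-!
# PROJECT R (row 37 by S43), gate G2* / LG1Hyp, producer (W): the Fricke automorphism `w_r`.
# File 1 (helper16): the action of the normaliser of `Γ₁(M)` on the field of modular functions

`repField1 M ⊆ ℂ((q))` is main's field of `q`-expansions of quotients of forms of equal weight on
`Γ₁(M)` (`S48/B/B1/RepHom1`).  For `g : GL (Fin 2) ℝ` such that the slash by `g` preserves the forms
on `Γ₁(M)` (`NStable M g`: the normaliser of `Γ₁(M)` in `GL₂⁺(ℚ)`, e.g. `Γ₀(M)`, the positive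
scalars, the Atkin-Lehner matrices `W_r`) we construct the ring endomorphism
`nmap g : repField1 M →+* repField1 M`, `x = qx a / qx b ↦ qx (a ∣ g) / qx (b ∣ g)`, with

* `nmap_spec`  : `nmap g x * qx (b ∣[k] g) = qx (a ∣[k] g)` for every representative `(a, b)` of `x`;
* `nmap_mul`   : `nmap (g * h) = nmap h ∘ nmap g` (right action);
* `nmap_const` : `nmap g` is the identity on the constants.
-/

set_option autoImplicit false
set_option linter.unusedSectionVars false

noncomputable section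

namespace Fermat.Agent.S43.LG1.Wr.NormAct

open UpperHalfPlane CongruenceSubgroup Fermat.Agent.S20 Fermat.Agent.S23.QRing
open Fermat.Agent.S48.B.B1.Seams Fermat.Agent.S48.B.B1.RepHom1
open Fermat.Agent.S24.RepHom (ofPS_injective)

open scoped ModularForm Manifold MatrixGroups

variable {M : ℕ} [NeZero M]

/-- the slash by `g` preserves the forms on `Γ₁(M)` -/
def NStable (M : ℕ) (g : GL (Fin 2) ℝ) : Prop :=
  ∀ (k : ℤ) (a : ℍ → ℂ), IsMF (G1 M) k a → IsMF (G1 M) k (a ∣[k] g)

/-- the absolute value of the determinant, as a complex number -/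
def cdet (g : GL (Fin 2) ℝ) : ℂ := ((|g.det.val| : ℝ) : ℂ)

theorem cdet_ne_zero (g : GL (Fin 2) ℝ) : cdet g ≠ 0 := by
  unfold cdet
  exact Complex.ofReal_ne_zero.mpr (abs_ne_zero.mpr (Units.ne_zero g.det))

theorem mul_slash_cdet (k1 k2 : ℤ) (g : GL (Fin 2) ℝ) (f f' : ℍ → ℂ) :
    (f * f') ∣[k1 + k2] g = cdet g • (f ∣[k1] g * f' ∣[k2] g) := by
  rw [ModularForm.mul_slash]
  ext τ
  simp [cdet]

theorem slashGL_ne_zero (g : GL (Fin 2) ℝ) {k : ℤ} {b : ℍ → ℂ} (hb : b ≠ 0) : b ∣[k] g ≠ 0 := by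
  intro h0
  apply hb
  have : (b ∣[k] g) ∣[k] g⁻¹ = b := by
    rw [← SlashAction.slash_mul, mul_inv_cancel, SlashAction.slash_one]
  rw [← this, h0, SlashAction.zero_slash]

theorem ofPS_smul (c : ℂ) (p : PowerSeries ℂ) : ofPS (c • p) = HahnSeries.C c * ofPS p := by
  have h : c • p = PowerSeries.C c * p := by
    ext n
    simp
  rw [h, map_mul]
  congr 1
  exact HahnSeries.ofPowerSeries_C c

section Val

variable {g : GL (Fin 2) ℝ}

/-- the value of the translate by `g` on a pair of forms -/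
def nval (g : GL (Fin 2) ℝ) (k : ℤ) (a b : ℍ → ℂ) : LaurentSeries ℂ :=
  ofPS (qx (a ∣[k] g)) / ofPS (qx (b ∣[k] g))

theorem den_ne_zero (hst : NStable M g) {x : LaurentSeries ℂ} {k : ℤ} {a b : ℍ → ℂ}
    (h : IsRepOf1 M x k a b) : ofPS (qx (b ∣[k] g)) ≠ 0 := by
  intro h0
  have h1 : qx (b ∣[k] g) = 0 := ofPS_injective (by rw [h0, map_zero])
  exact slashGL_ne_zero g h.hb0 ((qx_eq_zero_iff (isQ_of_isMF1 (hst k b h.hb))).mp h1)

/-- the translated pair represents the value -/
theorem isRepOf1_nval (hst : NStable M g) {x : LaurentSeries ℂ} {k : ℤ} {a b : ℍ → ℂ}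
    (h : IsRepOf1 M x k a b) : IsRepOf1 M (nval g k a b) k (a ∣[k] g) (b ∣[k] g) where
  ha := hst k a h.ha
  hb := hst k b h.hb
  hb0 := slashGL_ne_zero g h.hb0
  eq := by
    unfold nval
    rw [div_mul_cancel₀ _ (den_ne_zero hst h)]

/-- the value does not depend on the representative -/
theorem nval_eq (hst : NStable M g) {x : LaurentSeries ℂ} {k k' : ℤ} {a b a' b' : ℍ → ℂ}
    (h : IsRepOf1 M x k a b) (h' : IsRepOf1 M x k' a' b') :
    nval g k a b = nval g k' a' b' := by
  unfold nval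
  rw [div_eq_div_iff (den_ne_zero hst h) (den_ne_zero hst h')]
  have hc := IsRepOf1x.cross h h'
  have h1 := mul_slash_cdet k k' g a b'
  have h2 := mul_slash_cdet k' k g a' b
  rw [add_comm k' k, ← hc, h1] at h2
  have h3 : (a ∣[k] g) * (b' ∣[k'] g) = (a' ∣[k'] g) * (b ∣[k] g) := by
    have h4 := congrArg (fun F : ℍ → ℂ => (cdet g)⁻¹ • F) h2
    simpa only [smul_smul, inv_mul_cancel₀ (cdet_ne_zero g), one_smul] using h4
  have h5 : ofPS (qx ((a ∣[k] g) * (b' ∣[k'] g))) = ofPS (qx ((a' ∣[k'] g) * (b ∣[k] g))) := by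
    rw [h3]
  rw [qx_mul (isQ_of_isMF1 (hst k a h.ha)) (isQ_of_isMF1 (hst k' b' h'.hb)),
    qx_mul (isQ_of_isMF1 (hst k' a' h'.ha)) (isQ_of_isMF1 (hst k b h.hb)), map_mul, map_mul] at h5
  exact h5

end Val

section Map

variable (g : GL (Fin 2) ℝ)

/-- the underlying function of `nmap` -/
def nfun (x : repField1 M) : LaurentSeries ℂ :=
  nval g (Classical.choose x.2) (Classical.choose (Classical.choose_spec x.2))
    (Classical.choose (Classical.choose_spec (Classical.choose_spec x.2)))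

variable {g}

theorem nfun_eq (hst : NStable M g) (x : repField1 M) {k : ℤ} {a b : ℍ → ℂ}
    (h : IsRepOf1 M (x : LaurentSeries ℂ) k a b) : nfun g x = nval g k a b :=
  nval_eq hst (Classical.choose_spec (Classical.choose_spec (Classical.choose_spec x.2))) h

theorem nfun_mem (hst : NStable M g) (x : repField1 M) : nfun g x ∈ repField1 M := by
  obtain ⟨k, a, b, h⟩ := x.2
  rw [nfun_eq hst x h]
  exact ⟨k, _, _, isRepOf1_nval hst h⟩

variable (g)

/-- **the action of the normaliser of `Γ₁(M)` on the field of modular functions** (values in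
`ℂ((q))`) -/
def nmapL (hst : NStable M g) : repField1 M →+* LaurentSeries ℂ where
  toFun := nfun g
  map_one' := by
    rw [nfun_eq hst (1 : repField1 M) (IsRepOf1x.one (M := M))]
    unfold nval
    exact div_self (den_ne_zero hst (IsRepOf1x.one (M := M)))
  map_mul' := by
    rintro ⟨x, k, a, b, h⟩ ⟨x', k', a', b', h'⟩
    have e1 : nfun g ⟨x, k, a, b, h⟩ = nval g k a b := nfun_eq hst _ h
    have e2 : nfun g ⟨x', k', a', b', h'⟩ = nval g k' a' b' := nfun_eq hst _ h'
    have e3 : nfun g ((⟨x, k, a, b, h⟩ : repField1 M) * (⟨x', k', a', b', h'⟩ : repField1 M))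
        = nval g (k + k') (a * a') (b * b') := nfun_eq hst _ (IsRepOf1x.mul h h')
    rw [e1, e2, e3]
    unfold nval
    have qa := isQ_of_isMF1 (hst k a h.ha)
    have qb := isQ_of_isMF1 (hst k b h.hb)
    have qa' := isQ_of_isMF1 (hst k' a' h'.ha)
    have qb' := isQ_of_isMF1 (hst k' b' h'.hb)
    rw [mul_slash_cdet, mul_slash_cdet, qx_smul _ (qa.mul qa'), qx_smul _ (qb.mul qb'),
      qx_mul qa qa', qx_mul qb qb', ofPS_smul, ofPS_smul, map_mul, map_mul]
    have hc : (HahnSeries.C (cdet g) : LaurentSeries ℂ) ≠ 0 :=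
      (map_ne_zero (HahnSeries.C : ℂ →+* LaurentSeries ℂ)).mpr (cdet_ne_zero g)
    have hb := den_ne_zero hst h
    have hb' := den_ne_zero hst h'
    field_simp
  map_zero' := by
    rw [nfun_eq hst (0 : repField1 M) (IsRepOf1x.zero (M := M))]
    unfold nval
    rw [SlashAction.zero_slash, qx_zero, map_zero, zero_div]
  map_add' := by
    rintro ⟨x, k, a, b, h⟩ ⟨x', k', a', b', h'⟩
    have e1 : nfun g ⟨x, k, a, b, h⟩ = nval g k a b := nfun_eq hst _ h
    have e2 : nfun g ⟨x', k', a', b', h'⟩ = nval g k' a' b' := nfun_eq hst _ h'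
    have e3 : nfun g ((⟨x, k, a, b, h⟩ : repField1 M) + (⟨x', k', a', b', h'⟩ : repField1 M))
        = nval g (k + k') (a * b' + a' * b) (b * b') := nfun_eq hst _ (IsRepOf1x.add h h')
    rw [e1, e2, e3]
    unfold nval
    have qa := isQ_of_isMF1 (hst k a h.ha)
    have qb := isQ_of_isMF1 (hst k b h.hb)
    have qa' := isQ_of_isMF1 (hst k' a' h'.ha)
    have qb' := isQ_of_isMF1 (hst k' b' h'.hb)
    have h2 : (a' * b) ∣[k + k'] g = cdet g • ((a' ∣[k'] g) * (b ∣[k] g)) := by
      rw [add_comm k k']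
      exact mul_slash_cdet k' k g a' b
    have hb := den_ne_zero hst h
    have hb' := den_ne_zero hst h'
    have hc : (HahnSeries.C (cdet g) : LaurentSeries ℂ) ≠ 0 :=
      (map_ne_zero (HahnSeries.C : ℂ →+* LaurentSeries ℂ)).mpr (cdet_ne_zero g)
    rw [SlashAction.add_slash, mul_slash_cdet, h2, mul_slash_cdet, ← smul_add,
      qx_smul _ ((qa.mul qb').add (qa'.mul qb)), qx_smul _ (qb.mul qb'),
      qx_add (qa.mul qb') (qa'.mul qb), qx_mul qa qb', qx_mul qa' qb, qx_mul qb qb',
      ofPS_smul, ofPS_smul, map_add, map_mul, map_mul, map_mul]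
    field_simp

variable {g}

theorem nmapL_eq (hst : NStable M g) (x : repField1 M) {k : ℤ} {a b : ℍ → ℂ}
    (h : IsRepOf1 M (x : LaurentSeries ℂ) k a b) : nmapL g hst x = nval g k a b :=
  nfun_eq hst x h

variable (g)

/-- **the action of the normaliser of `Γ₁(M)` on the field of modular functions** -/
def nmap (hst : NStable M g) : repField1 M →+* repField1 M :=
  (nmapL g hst).codRestrict (repField1 M) (fun x => nfun_mem hst x)

variable {g}

@[simp]
theorem coe_nmap (hst : NStable M g) (x : repField1 M) :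
    ((nmap g hst x : repField1 M) : LaurentSeries ℂ) = nmapL g hst x := rfl

/-- **characterisation of `nmap`** -/
theorem nmap_spec (hst : NStable M g) (x : repField1 M) {k : ℤ} {a b : ℍ → ℂ}
    (h : IsRepOf1 M (x : LaurentSeries ℂ) k a b) :
    ((nmap g hst x : repField1 M) : LaurentSeries ℂ) * ofPS (qx (b ∣[k] g)) =
      ofPS (qx (a ∣[k] g)) := by
  rw [coe_nmap, nmapL_eq hst x h]
  unfold nval
  exact div_mul_cancel₀ _ (den_ne_zero hst h)

/-- the translated pair represents the image -/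
theorem isRepOf1_nmap (hst : NStable M g) (x : repField1 M) {k : ℤ} {a b : ℍ → ℂ}
    (h : IsRepOf1 M (x : LaurentSeries ℂ) k a b) :
    IsRepOf1 M ((nmap g hst x : repField1 M) : LaurentSeries ℂ) k (a ∣[k] g) (b ∣[k] g) := by
  rw [coe_nmap, nmapL_eq hst x h]
  exact isRepOf1_nval hst h

/-- a series with the characteristic property is the image -/
theorem eq_nmap_of_spec (hst : NStable M g) (x : repField1 M) {k : ℤ} {a b : ℍ → ℂ}
    (h : IsRepOf1 M (x : LaurentSeries ℂ) k a b) {y : LaurentSeries ℂ}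
    (hy : y * ofPS (qx (b ∣[k] g)) = ofPS (qx (a ∣[k] g))) :
    ((nmap g hst x : repField1 M) : LaurentSeries ℂ) = y := by
  have h1 := nmap_spec hst x h
  exact mul_right_cancel₀ (den_ne_zero hst h) (h1.trans hy.symm)

theorem sigma_of_det_pos (hg : 0 < g.det.val) (z : ℂ) : UpperHalfPlane.σ g z = z := by
  unfold UpperHalfPlane.σ
  rw [if_pos hg]
  rfl

/-- `nmap g` is the identity on the constants (`det g > 0`) -/
theorem nmap_const (hst : NStable M g) (hg : 0 < g.det.val) (c : ℂ)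
    (hc : HahnSeries.C c ∈ repField1 M) :
    ((nmap g hst ⟨HahnSeries.C c, hc⟩ : repField1 M) : LaurentSeries ℂ) = HahnSeries.C c := by
  have hrep : IsRepOf1 M ((⟨HahnSeries.C c, hc⟩ : repField1 M) : LaurentSeries ℂ) 0
      (fun _ => c) (1 : ℍ → ℂ) := IsRepOf1x.const (M := M) c
  refine eq_nmap_of_spec hst _ hrep ?_
  have e : (fun _ : ℍ => c) = c • (1 : ℍ → ℂ) := by
    ext τ
    simp
  have hq1 : IsQ ((1 : ℍ → ℂ) ∣[(0 : ℤ)] g) := isQ_of_isMF1 (hst 0 1 (IsMF.const 1))
  rw [e, ModularForm.smul_slash, sigma_of_det_pos hg, qx_smul _ hq1, ofPS_smul]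

/-! ### Composition -/

theorem nStable_mul {g h : GL (Fin 2) ℝ} (hg : NStable M g) (hh : NStable M h) :
    NStable M (g * h) := fun k a ha => by
  rw [SlashAction.slash_mul]
  exact hh k _ (hg k a ha)

/-- **right action**: `nmap (g * h) = nmap h ∘ nmap g` -/
theorem nmap_mul {g h : GL (Fin 2) ℝ} (hg : NStable M g) (hh : NStable M h) (x : repField1 M) :
    nmap (g * h) (nStable_mul hg hh) x = nmap h hh (nmap g hg x) := by
  obtain ⟨k, a, b, hrep⟩ := x.2
  apply Subtype.ext
  refine eq_nmap_of_spec (nStable_mul hg hh) x hrep ?_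
  rw [SlashAction.slash_mul, SlashAction.slash_mul]
  exact nmap_spec hh (nmap g hg x) (isRepOf1_nmap hg x hrep)

/-- `nmap` only depends on the matrix -/
theorem nmap_congr {g h : GL (Fin 2) ℝ} (hg : NStable M g) (hh : NStable M h) (e : g = h)
    (x : repField1 M) : nmap g hg x = nmap h hh x := by
  subst e
  rfl

/-! ### Positive scalars -/

theorem slash_scalar (u : ℝˣ) (hu : 0 < (u : ℝ)) (k : ℤ) (f : ℍ → ℂ) :
    f ∣[k] (Matrix.GeneralLinearGroup.scalar (Fin 2) u) = (((u : ℝ) : ℂ) ^ (k - 2)) • f := by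
  have hdet : ((Matrix.GeneralLinearGroup.scalar (Fin 2) u).det : ℝ) = (u : ℝ) ^ 2 := by
    simp [Matrix.GeneralLinearGroup.scalar]
  have hpos : 0 < ((Matrix.GeneralLinearGroup.scalar (Fin 2) u).det : ℝ) := by
    rw [hdet]
    positivity
  have hu0 : (((u : ℝ)) : ℂ) ≠ 0 := Complex.ofReal_ne_zero.mpr hu.ne'
  ext τ
  rw [ModularForm.slash_apply, sigma_of_det_pos hpos, UpperHalfPlane.denom_scalar,
    UpperHalfPlane.glScalar_smul, hdet, abs_of_pos (by positivity)]
  simp only [Pi.smul_apply, smul_eq_mul]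
  push_cast
  rw [← zpow_natCast, ← zpow_mul, mul_assoc, ← zpow_add₀ hu0, mul_comm]
  congr 2
  push_cast
  ring

theorem nStable_scalar (u : ℝˣ) (hu : 0 < (u : ℝ)) :
    NStable M (Matrix.GeneralLinearGroup.scalar (Fin 2) u) := fun k a ha => by
  rw [slash_scalar u hu]
  exact ha.smul _

/-- positive scalars act trivially -/
theorem nmap_scalar (u : ℝˣ) (hu : 0 < (u : ℝ)) (x : repField1 M) :
    nmap (Matrix.GeneralLinearGroup.scalar (Fin 2) u) (nStable_scalar u hu) x = x := by
  obtain ⟨k, a, b, hrep⟩ := x.2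
  apply Subtype.ext
  refine eq_nmap_of_spec (nStable_scalar u hu) x hrep ?_
  rw [slash_scalar u hu, slash_scalar u hu, qx_smul _ (isQ_of_isMF1 hrep.ha),
    qx_smul _ (isQ_of_isMF1 hrep.hb), ofPS_smul, ofPS_smul, hrep.eq]
  ring

end Map

end Fermat.Agent.S43.LG1.Wr.NormAct

end
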