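import Mathlib
import Fermat.Agent.S43.LG1.Wr.NormAct

/-!
# PROJECT R (row 37 by S43), gate G2* / LG1Hyp, producer (W): the Fricke automorphism `w_r`.
# File 2 (helper16): the Atkin-Lehner matrix `W_r` normalises `Γ₁(N r)`

`M = N r`, `gcd(N, r) = 1`, `r d₀ - N m = 1`.  `W = (r, m; N r, r d₀)`, `det W = r`.
For `δ = (a, b; N r c', d) ∈ Γ₁(N r)` the conjugate `W δ W⁻¹ = conjW δ` is again in `Γ₁(N r)`, hence
the slash by `W` preserves the forms on `Γ₁(N r)` (`nStable_W`).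
-/

set_option autoImplicit false
set_option linter.unusedSectionVars false

noncomputable section

namespace Fermat.Agent.S43.LG1.Wr.Matrix

open UpperHalfPlane CongruenceSubgroup Fermat.Agent.S20 Fermat.Agent.S23.QRing
open Fermat.Agent.S48.B.B1.Seams Fermat.Agent.S48.B.B1.RepHom1
open Fermat.Agent.S43.LG1.Wr.NormAct
open Matrix.SpecialLinearGroup

open scoped ModularForm Manifold MatrixGroups Pointwise

/-- the Bezout datum `r d₀ - N m = 1` -/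
structure WDatum (N r : ℕ) where
  m : ℤ
  d0 : ℤ
  h : (r : ℤ) * d0 - (N : ℤ) * m = 1

variable {N r : ℕ} [NeZero r]

theorem WDatum.hR (D : WDatum N r) : (r : ℝ) * (D.d0 : ℝ) - (N : ℝ) * (D.m : ℝ) = 1 := by
  have := congrArg (Int.cast : ℤ → ℝ) D.h
  push_cast at this
  exact this

/-- the matrix `(r, m; N r, r d₀)` -/
def Wmat (D : WDatum N r) : Matrix (Fin 2) (Fin 2) ℝ :=
  !![(r : ℝ), (D.m : ℝ); (N : ℝ) * r, (r : ℝ) * D.d0]

theorem det_Wmat (D : WDatum N r) : (Wmat D).det = r := by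
  rw [Wmat, Matrix.det_fin_two_of]
  linear_combination (r : ℝ) * D.hR

/-- **the Atkin-Lehner matrix `W_r`** -/
def W (D : WDatum N r) : GL (Fin 2) ℝ :=
  Matrix.GeneralLinearGroup.mkOfDetNeZero (Wmat D) (by
    rw [det_Wmat]
    exact_mod_cast NeZero.ne r)

theorem coe_W (D : WDatum N r) : ((W D : GL (Fin 2) ℝ) : Matrix (Fin 2) (Fin 2) ℝ) = Wmat D := rfl

theorem det_W (D : WDatum N r) : ((W D).det : ℝ) = r := by
  rw [Matrix.GeneralLinearGroup.val_det_apply, coe_W, det_Wmat]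

theorem det_W_pos (D : WDatum N r) : 0 < ((W D).det : ℝ) := by
  rw [det_W]
  exact_mod_cast Nat.pos_of_ne_zero (NeZero.ne r)

/-! ### Conjugation of `Γ₁(N r)` -/

/-- `W δ W⁻¹` for `δ = (a, b; N r c', d)` -/
def conjW (D : WDatum N r) (δ : SL(2, ℤ)) (c' : ℤ) (hc : δ 1 0 = (N : ℤ) * r * c') : SL(2, ℤ) :=
  ⟨!![((r : ℤ) * δ 0 0 + D.m * N * r * c') * D.d0 - N * (r * δ 0 1 + D.m * δ 1 1),
      -(δ 0 0 * D.m) - D.m * D.m * N * c' + r * δ 0 1 + D.m * δ 1 1;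
      (N : ℤ) * r * (δ 0 0 * D.d0 + D.d0 * D.d0 * r * c' - N * δ 0 1 - D.d0 * δ 1 1),
      -(N * δ 0 0 * D.m) - D.d0 * N * r * c' * D.m + N * r * δ 0 1 + r * D.d0 * δ 1 1], by
    have hdet := Matrix.SpecialLinearGroup.det_coe δ
    rw [Matrix.det_fin_two, hc] at hdet
    rw [Matrix.det_fin_two_of]
    have h := D.h
    linear_combination
      (((r : ℤ) * D.d0 - N * D.m + 1) * (δ 0 0 * δ 1 1 - δ 0 1 * ((N : ℤ) * r * c'))) * h + hdet⟩

theorem coe_conjW (D : WDatum N r) (δ : SL(2, ℤ)) (c' : ℤ) (hc : δ 1 0 = (N : ℤ) * r * c') :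
    (conjW D δ c' hc : Matrix (Fin 2) (Fin 2) ℤ) =
      !![((r : ℤ) * δ 0 0 + D.m * N * r * c') * D.d0 - N * (r * δ 0 1 + D.m * δ 1 1),
      -(δ 0 0 * D.m) - D.m * D.m * N * c' + r * δ 0 1 + D.m * δ 1 1;
      (N : ℤ) * r * (δ 0 0 * D.d0 + D.d0 * D.d0 * r * c' - N * δ 0 1 - D.d0 * δ 1 1),
      -(N * δ 0 0 * D.m) - D.d0 * N * r * c' * D.m + N * r * δ 0 1 + r * D.d0 * δ 1 1] := rfl

theorem W_mul_mapGL (D : WDatum N r) (δ : SL(2, ℤ)) (c' : ℤ)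
    (hc : δ 1 0 = (N : ℤ) * r * c') :
    W D * mapGL ℝ δ = mapGL ℝ (conjW D δ c' hc) * W D := by
  have hR := D.hR
  have hcR : ((δ 1 0 : ℤ) : ℝ) = (N : ℝ) * r * c' := by
    have := congrArg (Int.cast : ℤ → ℝ) hc
    push_cast at this
    exact this
  ext i j
  fin_cases i <;> fin_cases j <;>
    simp [coe_W, Wmat, coe_conjW, Matrix.mul_apply, Fin.sum_univ_two, hcR]
  · linear_combination (-((r : ℝ) * δ 0 0 + D.m * (N * r * c'))) * hR
  · linear_combination (-((r : ℝ) * δ 0 1 + D.m * δ 1 1)) * hR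
  · linear_combination (-((N : ℝ) * r * δ 0 0 + r * D.d0 * (N * r * c'))) * hR
  · linear_combination (-((N : ℝ) * r * δ 0 1 + r * D.d0 * δ 1 1)) * hR

theorem exists_mul_of_mem_Gamma1 {δ : SL(2, ℤ)} (hδ : δ ∈ Gamma1 (N * r)) :
    ∃ c' : ℤ, δ 1 0 = (N : ℤ) * r * c' := by
  rw [Gamma1_mem] at hδ
  obtain ⟨c', hc'⟩ := (ZMod.intCast_zmod_eq_zero_iff_dvd _ _).mp hδ.2.2
  refine ⟨c', ?_⟩
  rw [hc']
  push_cast
  ring

theorem conjW_mem_Gamma1 (D : WDatum N r) {δ : SL(2, ℤ)} (hδ : δ ∈ Gamma1 (N * r)) (c' : ℤ)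
    (hc : δ 1 0 = (N : ℤ) * r * c') : conjW D δ c' hc ∈ Gamma1 (N * r) := by
  rw [Gamma1_mem] at hδ ⊢
  obtain ⟨ha, hd, -⟩ := hδ
  have hM : ((N : ZMod (N * r)) * (r : ZMod (N * r))) = 0 := by
    rw [← Nat.cast_mul]
    exact ZMod.natCast_self (N * r)
  have h : ((r : ZMod (N * r)) * (D.d0 : ZMod (N * r)) - (N : ZMod (N * r)) * (D.m : ZMod (N * r))) = 1 := by
    have := congrArg (Int.cast : ℤ → ZMod (N * r)) D.h
    push_cast at this
    exact this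
  have e00 : (conjW D δ c' hc) 0 0 =
      ((r : ℤ) * δ 0 0 + D.m * N * r * c') * D.d0 - N * (r * δ 0 1 + D.m * δ 1 1) := rfl
  have e11 : (conjW D δ c' hc) 1 1 =
      -(N * δ 0 0 * D.m) - D.d0 * N * r * c' * D.m + N * r * δ 0 1 + r * D.d0 * δ 1 1 := rfl
  have e10 : (conjW D δ c' hc) 1 0 =
      (N : ℤ) * r * (δ 0 0 * D.d0 + D.d0 * D.d0 * r * c' - N * δ 0 1 - D.d0 * δ 1 1) := rfl
  refine ⟨?_, ?_, ?_⟩
  · rw [e00]
    push_cast
    linear_combination ((r : ZMod (N * r)) * D.d0) * ha - ((N : ZMod (N * r)) * D.m) * hd + h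
      + ((D.m : ZMod (N * r)) * c' * D.d0 - ((δ 0 1 : ℤ) : ZMod (N * r))) * hM
  · rw [e11]
    push_cast
    linear_combination (-((N : ZMod (N * r)) * D.m)) * ha + ((r : ZMod (N * r)) * D.d0) * hd + h
      + (((δ 0 1 : ℤ) : ZMod (N * r)) - (D.d0 : ZMod (N * r)) * c' * D.m) * hM
  · rw [e10]
    push_cast
    linear_combination ((((δ 0 0 : ℤ) : ZMod (N * r)) * D.d0 + (D.d0 : ZMod (N * r)) * D.d0 * r * c'
      - (N : ZMod (N * r)) * ((δ 0 1 : ℤ) : ZMod (N * r)) - (D.d0 : ZMod (N * r)) * ((δ 1 1 : ℤ) : ZMod (N * r)))) * hM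

theorem G1_le_conj_W (D : WDatum N r) :
    G1 (N * r) ≤ ConjAct.toConjAct (W D)⁻¹ • G1 (N * r) := by
  rintro _ ⟨δ, hδ, rfl⟩
  rw [map_inv, Subgroup.mem_inv_pointwise_smul_iff, ConjAct.toConjAct_smul]
  obtain ⟨c', hc⟩ := exists_mul_of_mem_Gamma1 hδ
  refine ⟨conjW D δ c' hc, conjW_mem_Gamma1 D hδ c' hc, ?_⟩
  exact eq_mul_inv_of_mul_eq (W_mul_mapGL D δ c' hc).symm

/-- **the slash by `W_r` preserves the forms on `Γ₁(N r)`** -/
theorem nStable_W [NeZero (N * r)] (D : WDatum N r) : NStable (N * r) (W D) := by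
  intro k a ha
  obtain ⟨F, rfl⟩ := ha
  have h1 : IsMF (ConjAct.toConjAct (W D)⁻¹ • G1 (N * r)) k (⇑F ∣[k] W D) :=
    ⟨ModularForm.translate F (W D), by rw [ModularForm.coe_translate]⟩
  exact h1.mono (G1_le_conj_W D)

/-! ### The square of `W_r` -/

/-- `σ₀ = r⁻¹ W²` -/
def sigma0 (D : WDatum N r) : SL(2, ℤ) :=
  ⟨!![(r : ℤ) + D.m * N, D.m * (1 + D.d0); (N : ℤ) * r * (1 + D.d0), N * D.m + r * D.d0 * D.d0], by
    rw [Matrix.det_fin_two_of]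
    have h := D.h
    linear_combination (((r : ℤ) * D.d0 - N * D.m) + 1) * h⟩

theorem coe_sigma0 (D : WDatum N r) :
    (sigma0 D : Matrix (Fin 2) (Fin 2) ℤ) =
      !![(r : ℤ) + D.m * N, D.m * (1 + D.d0); (N : ℤ) * r * (1 + D.d0),
        N * D.m + r * D.d0 * D.d0] := rfl

theorem sigma0_mem_Gamma0 (D : WDatum N r) : sigma0 D ∈ Gamma0 (N * r) := by
  rw [Gamma0_mem]
  have e10 : (sigma0 D) 1 0 = (N : ℤ) * r * (1 + D.d0) := rfl
  rw [e10]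
  push_cast
  have hM : ((N : ZMod (N * r)) * (r : ZMod (N * r))) = 0 := by
    rw [← Nat.cast_mul]
    exact ZMod.natCast_self (N * r)
  rw [hM, zero_mul]

theorem sigma0_apply_zero_zero (D : WDatum N r) : (sigma0 D) 0 0 = (r : ℤ) + D.m * N := rfl

/-- the positive scalar `r` -/
def rUnit (r : ℕ) [NeZero r] : ℝˣ := Units.mk0 (r : ℝ) (by exact_mod_cast NeZero.ne r)

theorem rUnit_pos (r : ℕ) [NeZero r] : 0 < ((rUnit r : ℝˣ) : ℝ) := by
  show 0 < (r : ℝ)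
  exact_mod_cast Nat.pos_of_ne_zero (NeZero.ne r)

/-- **`W² = r σ₀`** -/
theorem W_mul_W (D : WDatum N r) :
    W D * W D = Matrix.GeneralLinearGroup.scalar (Fin 2) (rUnit r) * mapGL ℝ (sigma0 D) := by
  have hu : ((rUnit r : ℝˣ) : ℝ) = r := rfl
  ext i j
  fin_cases i <;> fin_cases j <;>
    simp [coe_W, Wmat, coe_sigma0, Matrix.mul_apply, Fin.sum_univ_two]
  all_goals rw [hu]
  all_goals ring

end Fermat.Agent.S43.LG1.Wr.Matrix

end
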