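import Mathlib
import Fermat.Agent.S43.LG1.Wr.Matrix
import Fermat.Agent.S48.B.B1.Diamond

/-!
# PROJECT R (row 37 by S43), gate G2* / LG1Hyp, producer (W): the Fricke automorphism `w_r`.
# File 3 (helper16): the relations between `w_r` and the diamonds over `ℂ`

`wC D = nmap (W D)` and `dC σ = nmap σ` (`σ ∈ Γ₀(N r)`) on `repField1 (N r)`:

* `wC_wC` : `w w = ⟨σ₀⟩`, `σ₀ = r⁻¹ W²`, `(σ₀)₀₀ = r + m N`;
* `wC_dC` : `w ⟨W σ W⁻¹⟩ = ⟨σ⟩ w`.
-/

set_option autoImplicit false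
set_option linter.unusedSectionVars false

noncomputable section

namespace Fermat.Agent.S43.LG1.Wr.RelC

open UpperHalfPlane CongruenceSubgroup Fermat.Agent.S20 Fermat.Agent.S23.QRing
open Fermat.Agent.S48.B.B1.Seams Fermat.Agent.S48.B.B1.RepHom1
open Fermat.Agent.S43.LG1.Wr.NormAct Fermat.Agent.S43.LG1.Wr.Matrix
open Matrix.SpecialLinearGroup

open scoped ModularForm Manifold MatrixGroups Pointwise

/-- the slash by `σ ∈ Γ₀(M)` preserves the forms on `Γ₁(M)` -/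
theorem nStable_Gamma0 {M : ℕ} [NeZero M] {σ : SL(2, ℤ)} (hσ : σ ∈ Gamma0 M) :
    NStable M (mapGL ℝ σ) := fun _ _ ha =>
  Fermat.Agent.S48.B.B1.Diamond.isMF1_slash ha hσ

/-- the analytic diamond of `σ ∈ Γ₀(M)` -/
def dC {M : ℕ} [NeZero M] (σ : SL(2, ℤ)) (hσ : σ ∈ Gamma0 M) : repField1 M →+* repField1 M :=
  nmap (mapGL ℝ σ) (nStable_Gamma0 hσ)

theorem dC_spec {M : ℕ} [NeZero M] {σ : SL(2, ℤ)} (hσ : σ ∈ Gamma0 M) (x : repField1 M) {k : ℤ}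
    {a b : ℍ → ℂ} (h : IsRepOf1 M (x : LaurentSeries ℂ) k a b) :
    ((dC σ hσ x : repField1 M) : LaurentSeries ℂ) * ofPS (qx (b ∣[k] σ)) = ofPS (qx (a ∣[k] σ)) :=
  nmap_spec (nStable_Gamma0 hσ) x h

variable {N r : ℕ} [NeZero r] [NeZero (N * r)]

/-- **the analytic Fricke endomorphism `w_r`** of the field of modular functions on `Γ₁(N r)` -/
def wC (D : WDatum N r) : repField1 (N * r) →+* repField1 (N * r) :=
  nmap (W D) (nStable_W D)

theorem wC_spec (D : WDatum N r) (x : repField1 (N * r)) {k : ℤ} {a b : ℍ → ℂ}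
    (h : IsRepOf1 (N * r) (x : LaurentSeries ℂ) k a b) :
    ((wC D x : repField1 (N * r)) : LaurentSeries ℂ) * ofPS (qx (b ∣[k] W D)) =
      ofPS (qx (a ∣[k] W D)) :=
  nmap_spec (nStable_W D) x h

theorem isRepOf1_wC (D : WDatum N r) (x : repField1 (N * r)) {k : ℤ} {a b : ℍ → ℂ}
    (h : IsRepOf1 (N * r) (x : LaurentSeries ℂ) k a b) :
    IsRepOf1 (N * r) ((wC D x : repField1 (N * r)) : LaurentSeries ℂ) k (a ∣[k] W D)
      (b ∣[k] W D) :=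
  isRepOf1_nmap (nStable_W D) x h

theorem wC_const (D : WDatum N r) (c : ℂ) (hc : HahnSeries.C c ∈ repField1 (N * r)) :
    ((wC D ⟨HahnSeries.C c, hc⟩ : repField1 (N * r)) : LaurentSeries ℂ) = HahnSeries.C c :=
  nmap_const (nStable_W D) (det_W_pos D) c hc

/-- **`w w = ⟨σ₀⟩`** -/
theorem wC_wC (D : WDatum N r) (x : repField1 (N * r)) :
    wC D (wC D x) = dC (sigma0 D) (sigma0_mem_Gamma0 D) x := by
  unfold wC dC
  rw [← nmap_mul (nStable_W D) (nStable_W D) x]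
  rw [nmap_congr (nStable_mul (nStable_W D) (nStable_W D))
    (nStable_mul (nStable_scalar (rUnit r) (rUnit_pos r)) (nStable_Gamma0 (sigma0_mem_Gamma0 D)))
    (W_mul_W D) x]
  rw [nmap_mul (nStable_scalar (rUnit r) (rUnit_pos r)) (nStable_Gamma0 (sigma0_mem_Gamma0 D)) x,
    nmap_scalar (rUnit r) (rUnit_pos r)]

theorem conjW_mem_Gamma0 (D : WDatum N r) (σ : SL(2, ℤ)) (c' : ℤ)
    (hc : σ 1 0 = (N : ℤ) * r * c') : conjW D σ c' hc ∈ Gamma0 (N * r) := by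
  rw [Gamma0_mem]
  have e10 : (conjW D σ c' hc) 1 0 =
      (N : ℤ) * r * (σ 0 0 * D.d0 + D.d0 * D.d0 * r * c' - N * σ 0 1 - D.d0 * σ 1 1) := rfl
  rw [e10]
  push_cast
  have hM : ((N : ZMod (N * r)) * (r : ZMod (N * r))) = 0 := by
    rw [← Nat.cast_mul]
    exact ZMod.natCast_self (N * r)
  rw [hM, zero_mul]

/-- **`w ⟨W σ W⁻¹⟩ = ⟨σ⟩ w`** -/
theorem wC_dC (D : WDatum N r) (σ : SL(2, ℤ)) (hσ : σ ∈ Gamma0 (N * r)) (c' : ℤ)
    (hc : σ 1 0 = (N : ℤ) * r * c') (x : repField1 (N * r)) :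
    wC D (dC (conjW D σ c' hc) (conjW_mem_Gamma0 D σ c' hc) x) = dC σ hσ (wC D x) := by
  unfold wC dC
  rw [← nmap_mul (nStable_Gamma0 (conjW_mem_Gamma0 D σ c' hc)) (nStable_W D) x,
    ← nmap_mul (nStable_W D) (nStable_Gamma0 hσ) x]
  exact nmap_congr _ _ (W_mul_mapGL D σ c' hc).symm x

end Fermat.Agent.S43.LG1.Wr.RelC

end
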