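import Mathlib
import Fermat.Agent.S43.LG1.Wr.RelC
import Fermat.Agent.S24.QRep
import Fermat.Agent.S24.RepAll
import Fermat.Agent.S48.B.B1.RepAll1

/-!
# PROJECT R (row 37 by S43), gate G2* / LG1Hyp, producer (W): the Fricke automorphism `w_r`.
# File 4 (helper16): `w_r` on the level one generators `j(q^e)`

`M = N r`, `W = (r, m; N r, r d₀)`.  For a form `F` of level one and weight `k`:

* `e f = N` : `diag(e, 1) W = (1, e m; f, r d₀) diag(e r, 1)`, hence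
  `F(e ·) ∣[k] W = r^{k-1} F(e r ·)`;
* `e f = N` : `diag(e r, 1) W = r (r, e m; f, d₀) diag(e, 1)`, hence `F(e r ·) ∣[k] W = r⁻¹ F(e ·)`.

Consequently `w_r j(q^e) = j(q^{e r})` and `w_r j(q^{e r}) = j(q^e)` for `e ∣ N`.
-/

set_option autoImplicit false
set_option linter.unusedSectionVars false

noncomputable section

namespace Fermat.Agent.S43.LG1.Wr.LevelOne

open UpperHalfPlane CongruenceSubgroup Fermat.Agent.S20 Fermat.Agent.S23.QRing
open Fermat.Agent.S48.B.B1.Seams Fermat.Agent.S48.B.B1.RepHom1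
open Fermat.Agent.S43.LG1.Wr.NormAct Fermat.Agent.S43.LG1.Wr.Matrix Fermat.Agent.S43.LG1.Wr.RelC
open Fermat.Agent.S24.QRep (dil)
open Fermat.Agent.S24.RepHom (slash_eq_of_isMF_levelOne)
open Matrix.SpecialLinearGroup ModularCurve ModularForm

open scoped ModularForm Manifold MatrixGroups Pointwise

variable {N r : ℕ} [NeZero r]

/-! ### Slash and dilation -/

theorem slash_heckeDiagMatrix_eq (k : ℤ) (e : ℕ) [NeZero e] (F : ℍ → ℂ) :
    F ∣[k] heckeDiagMatrix e = ((e : ℂ) ^ (k - 1)) • dil e F := by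
  funext τ
  rw [slash_heckeDiagMatrix_apply k (NeZero.ne e)]
  rfl

theorem smul_slash_of_det_pos {g : GL (Fin 2) ℝ} (hg : 0 < g.det.val) (k : ℤ) (c : ℂ)
    (F : ℍ → ℂ) : (c • F) ∣[k] g = c • (F ∣[k] g) := by
  rw [ModularForm.smul_slash, sigma_of_det_pos hg]

/-! ### The two matrix identities -/

/-- `(1, e m; f, r d₀)` -/
def gamA (D : WDatum N r) (e f : ℕ) (hef : e * f = N) : SL(2, ℤ) :=
  ⟨!![1, (e : ℤ) * D.m; (f : ℤ), (r : ℤ) * D.d0], by
    rw [Matrix.det_fin_two_of]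
    have h := D.h
    have hN : ((e : ℤ) * f) = N := by exact_mod_cast hef
    linear_combination h - D.m * hN⟩

theorem coe_gamA (D : WDatum N r) (e f : ℕ) (hef : e * f = N) :
    (gamA D e f hef : Matrix (Fin 2) (Fin 2) ℤ) =
      !![1, (e : ℤ) * D.m; (f : ℤ), (r : ℤ) * D.d0] := rfl

theorem heckeDiag_mul_W_A (D : WDatum N r) (e f : ℕ) [NeZero e] (hef : e * f = N) :
    heckeDiagMatrix e * W D = mapGL ℝ (gamA D e f hef) * heckeDiagMatrix (e * r) := by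
  have he : e ≠ 0 := NeZero.ne e
  have hr : r ≠ 0 := NeZero.ne r
  have her : e * r ≠ 0 := Nat.mul_ne_zero he hr
  have hN : ((e : ℝ) * f) = N := by exact_mod_cast hef
  ext i j
  fin_cases i <;> fin_cases j <;>
    simp [coe_W, Wmat, coe_gamA, he, her, Matrix.mul_apply, Fin.sum_univ_two]
  · linear_combination (-(r : ℝ)) * hN

/-- `(r, e m; f, d₀)` -/
def gamB (D : WDatum N r) (e f : ℕ) (hef : e * f = N) : SL(2, ℤ) :=
  ⟨!![(r : ℤ), (e : ℤ) * D.m; (f : ℤ), D.d0], by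
    rw [Matrix.det_fin_two_of]
    have h := D.h
    have hN : ((e : ℤ) * f) = N := by exact_mod_cast hef
    linear_combination h - D.m * hN⟩

theorem coe_gamB (D : WDatum N r) (e f : ℕ) (hef : e * f = N) :
    (gamB D e f hef : Matrix (Fin 2) (Fin 2) ℤ) =
      !![(r : ℤ), (e : ℤ) * D.m; (f : ℤ), D.d0] := rfl

theorem heckeDiag_mul_W_B (D : WDatum N r) (e f : ℕ) [NeZero e] (hef : e * f = N) :
    heckeDiagMatrix (e * r) * W D =
      Matrix.GeneralLinearGroup.scalar (Fin 2) (rUnit r) * mapGL ℝ (gamB D e f hef) *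
        heckeDiagMatrix e := by
  have he : e ≠ 0 := NeZero.ne e
  have hr : r ≠ 0 := NeZero.ne r
  have her : e * r ≠ 0 := Nat.mul_ne_zero he hr
  have hN : ((e : ℝ) * f) = N := by exact_mod_cast hef
  have hu : ((rUnit r : ℝˣ) : ℝ) = r := rfl
  ext i j
  fin_cases i <;> fin_cases j <;>
    simp [coe_W, Wmat, coe_gamB, he, her, Matrix.mul_apply, Fin.sum_univ_two,
      -mul_eq_mul_left_iff, -mul_eq_mul_right_iff]
  all_goals rw [hu]
  all_goals first
    | ring1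
    | linear_combination (-(r : ℝ)) * hN

/-! ### The translates of the dilated level one forms -/

theorem neZero_mul' (e : ℕ) [NeZero e] : NeZero (e * r) :=
  ⟨Nat.mul_ne_zero (NeZero.ne e) (NeZero.ne r)⟩

theorem slash_mapGL_of_levelOne {k : ℤ} {F : ℍ → ℂ} (hF : IsMF 𝒮ℒ k F) (γ : SL(2, ℤ)) :
    F ∣[k] (mapGL ℝ γ) = F :=
  slash_eq_of_isMF_levelOne hF γ

theorem dil_eq_smul_slash (k : ℤ) (e : ℕ) [NeZero e] (F : ℍ → ℂ) :
    dil e F = (((e : ℂ) ^ (k - 1))⁻¹) • (F ∣[k] heckeDiagMatrix e) := by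
  have he : ((e : ℂ) ^ (k - 1)) ≠ 0 := zpow_ne_zero _ (Nat.cast_ne_zero.mpr (NeZero.ne e))
  rw [slash_heckeDiagMatrix_eq, smul_smul, inv_mul_cancel₀ he, one_smul]

/-- `F(e ·) ∣[k] W = r^{k-1} F(e r ·)` for `e ∣ N` -/
theorem dil_slash_W_A (D : WDatum N r) (e f : ℕ) [NeZero e] (hef : e * f = N) {k : ℤ}
    {F : ℍ → ℂ} (hF : IsMF 𝒮ℒ k F) :
    (dil e F) ∣[k] W D = (((r : ℂ)) ^ (k - 1)) • dil (e * r) F := by
  have := neZero_mul' (r := r) e
  have he : ((e : ℂ) ^ (k - 1)) ≠ 0 := zpow_ne_zero _ (Nat.cast_ne_zero.mpr (NeZero.ne e))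
  rw [dil_eq_smul_slash k e F, smul_slash_of_det_pos (det_W_pos D), ← SlashAction.slash_mul,
    heckeDiag_mul_W_A D e f hef, SlashAction.slash_mul, slash_mapGL_of_levelOne hF,
    slash_heckeDiagMatrix_eq, smul_smul]
  congr 1
  push_cast
  rw [mul_zpow, ← mul_assoc, inv_mul_cancel₀ he, one_mul]

/-- `F(e r ·) ∣[k] W = r⁻¹ F(e ·)` for `e ∣ N` -/
theorem dil_slash_W_B (D : WDatum N r) (e f : ℕ) [NeZero e] (hef : e * f = N) {k : ℤ}
    {F : ℍ → ℂ} (hF : IsMF 𝒮ℒ k F) :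
    (dil (e * r) F) ∣[k] W D = (((r : ℂ))⁻¹) • dil e F := by
  have := neZero_mul' (r := r) e
  have he : ((e : ℂ) ^ (k - 1)) ≠ 0 := zpow_ne_zero _ (Nat.cast_ne_zero.mpr (NeZero.ne e))
  have hr : ((r : ℂ)) ≠ 0 := Nat.cast_ne_zero.mpr (NeZero.ne r)
  have hu : (((rUnit r : ℝˣ) : ℝ) : ℂ) = (r : ℂ) := by
    show (((r : ℝ)) : ℂ) = (r : ℂ)
    simp
  rw [dil_eq_smul_slash k (e * r) F, smul_slash_of_det_pos (det_W_pos D), ← SlashAction.slash_mul,
    heckeDiag_mul_W_B D e f hef, SlashAction.slash_mul, SlashAction.slash_mul,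
    slash_scalar (rUnit r) (rUnit_pos r), smul_slash_of_det_pos (by
      rw [Matrix.SpecialLinearGroup.det_mapGL]
      exact one_pos),
    slash_mapGL_of_levelOne hF, smul_slash_of_det_pos (det_heckeDiagMatrix_pos e),
    slash_heckeDiagMatrix_eq, smul_smul, smul_smul, hu]
  congr 1
  push_cast
  rw [mul_zpow, mul_inv]
  have h1 : (r : ℂ) ^ (k - 2) = (r : ℂ) ^ (k - 1) * (r : ℂ)⁻¹ := by
    rw [← zpow_neg_one, ← zpow_add₀ hr]
    congr 1
    ring
  rw [h1]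
  have hr' : ((r : ℂ) ^ (k - 1)) ≠ 0 := zpow_ne_zero _ hr
  field_simp

/-! ### `w_r` on the generators `j(q^e)` -/

section Values

variable [NeZero (N * r)]

open Fermat.Agent.S24.RepAll (isRepOf_jd isMF_E4cube isMF_discriminant)
open Fermat.Agent.S48.B.B1.RepAll1 (isRepOf1_of_isRepOf jd_mem_repField1)

/-- the representative of `j(q^e)` at level `Γ₁(M)` in terms of `dil` -/
theorem isRepOf1_jd (M : ℕ) [NeZero M] (e : ℕ) [NeZero e] (he : e ∣ M) :
    IsRepOf1 M (coeffEmb ℂ (qExpand ℚ e jq)) 12 (dil e (fun τ : ℍ => E₄ τ ^ 3))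
      (dil e (ModularForm.discriminant : ℍ → ℂ)) :=
  isRepOf1_of_isRepOf (isRepOf_jd M e he)

theorem dvd_mul_of_mul_eq {e f : ℕ} (hef : e * f = N) : e ∣ N * r :=
  Dvd.dvd.mul_right ⟨f, hef.symm⟩ r

theorem mul_dvd_mul_of_mul_eq {e f : ℕ} (hef : e * f = N) : e * r ∣ N * r :=
  Nat.mul_dvd_mul_right ⟨f, hef.symm⟩ r

/-- **`w_r j(q^e) = j(q^{e r})`** for `e ∣ N` -/
theorem wC_jd_A (D : WDatum N r) (e f : ℕ) [NeZero e] (hef : e * f = N)
    (x : repField1 (N * r)) (hx : (x : LaurentSeries ℂ) = coeffEmb ℂ (qExpand ℚ e jq)) :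
    ((wC D x : repField1 (N * r)) : LaurentSeries ℂ) = coeffEmb ℂ (qExpand ℚ (e * r) jq) := by
  have := neZero_mul' (r := r) e
  have hrep : IsRepOf1 (N * r) (x : LaurentSeries ℂ) 12 (dil e (fun τ : ℍ => E₄ τ ^ 3))
      (dil e (ModularForm.discriminant : ℍ → ℂ)) := by
    rw [hx]
    exact isRepOf1_jd (N * r) e (dvd_mul_of_mul_eq hef)
  have hrep' := isRepOf1_jd (N * r) (e * r) (mul_dvd_mul_of_mul_eq hef)
  refine eq_nmap_of_spec (nStable_W D) x hrep ?_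
  rw [dil_slash_W_A D e f hef isMF_E4cube, dil_slash_W_A D e f hef isMF_discriminant,
    qx_smul _ (isQ_of_isMF1 hrep'.ha), qx_smul _ (isQ_of_isMF1 hrep'.hb), ofPS_smul, ofPS_smul,
    hrep'.eq]
  ring

/-- **`w_r j(q^{e r}) = j(q^e)`** for `e ∣ N` -/
theorem wC_jd_B (D : WDatum N r) (e f : ℕ) [NeZero e] (hef : e * f = N)
    (x : repField1 (N * r)) (hx : (x : LaurentSeries ℂ) = coeffEmb ℂ (qExpand ℚ (e * r) jq)) :
    ((wC D x : repField1 (N * r)) : LaurentSeries ℂ) = coeffEmb ℂ (qExpand ℚ e jq) := by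
  have := neZero_mul' (r := r) e
  have hrep : IsRepOf1 (N * r) (x : LaurentSeries ℂ) 12 (dil (e * r) (fun τ : ℍ => E₄ τ ^ 3))
      (dil (e * r) (ModularForm.discriminant : ℍ → ℂ)) := by
    rw [hx]
    exact isRepOf1_jd (N * r) (e * r) (mul_dvd_mul_of_mul_eq hef)
  have hrep' := isRepOf1_jd (N * r) e (dvd_mul_of_mul_eq (r := r) hef)
  refine eq_nmap_of_spec (nStable_W D) x hrep ?_
  rw [dil_slash_W_B D e f hef isMF_E4cube, dil_slash_W_B D e f hef isMF_discriminant,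
    qx_smul _ (isQ_of_isMF1 hrep'.ha), qx_smul _ (isQ_of_isMF1 hrep'.hb), ofPS_smul, ofPS_smul,
    hrep'.eq]
  ring

end Values

/-! ### The general divisor `e e_r`, `e ∣ N`, `e_r ∣ r` -/

/-- a nonzero natural number as a positive real unit -/
def natUnit (n : ℕ) (hn : n ≠ 0) : ℝˣ := Units.mk0 (n : ℝ) (by exact_mod_cast hn)

theorem natUnit_pos (n : ℕ) (hn : n ≠ 0) : 0 < ((natUnit n hn : ℝˣ) : ℝ) := by
  show 0 < (n : ℝ)
  exact_mod_cast Nat.pos_of_ne_zero hn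

/-- `(e_r, e m; f, f_r d₀)` -/
def gamC (D : WDatum N r) (e f er fr : ℕ) (hef : e * f = N) (hr : er * fr = r) : SL(2, ℤ) :=
  ⟨!![(er : ℤ), (e : ℤ) * D.m; (f : ℤ), (fr : ℤ) * D.d0], by
    rw [Matrix.det_fin_two_of]
    have h := D.h
    have hN : ((e : ℤ) * f) = N := by exact_mod_cast hef
    have hR : ((er : ℤ) * fr) = r := by exact_mod_cast hr
    linear_combination h - D.m * hN + D.d0 * hR⟩

theorem coe_gamC (D : WDatum N r) (e f er fr : ℕ) (hef : e * f = N) (hr : er * fr = r) :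
    (gamC D e f er fr hef hr : Matrix (Fin 2) (Fin 2) ℤ) =
      !![(er : ℤ), (e : ℤ) * D.m; (f : ℤ), (fr : ℤ) * D.d0] := rfl

theorem heckeDiag_mul_W_C (D : WDatum N r) (e f er fr : ℕ) [NeZero e] (hef : e * f = N)
    (hr : er * fr = r) (her0 : er ≠ 0) :
    heckeDiagMatrix (e * er) * W D =
      Matrix.GeneralLinearGroup.scalar (Fin 2) (natUnit er her0) *
        mapGL ℝ (gamC D e f er fr hef hr) * heckeDiagMatrix (e * fr) := by
  have he : e ≠ 0 := NeZero.ne e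
  have hfr0 : fr ≠ 0 := by
    rintro rfl
    rw [Nat.mul_zero] at hr
    exact NeZero.ne r hr.symm
  have h1 : e * er ≠ 0 := Nat.mul_ne_zero he her0
  have h2 : e * fr ≠ 0 := Nat.mul_ne_zero he hfr0
  have hN : ((e : ℝ) * f) = N := by exact_mod_cast hef
  have hR : ((er : ℝ) * fr) = r := by exact_mod_cast hr
  have hu : ((natUnit er her0 : ℝˣ) : ℝ) = er := rfl
  ext i j
  fin_cases i <;> fin_cases j <;>
    simp [coe_W, Wmat, coe_gamC, h1, h2, Matrix.mul_apply, Fin.sum_univ_two,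
      -mul_eq_mul_left_iff, -mul_eq_mul_right_iff]
  all_goals rw [hu]
  · linear_combination (-((e : ℝ) * er)) * hR
  · ring
  · linear_combination (-(r : ℝ)) * hN - ((e : ℝ) * f) * hR
  · linear_combination (-(D.d0 : ℝ)) * hR

/-- `F(e e_r ·) ∣[k] W = e_r⁻¹ f_r^{k-1} F(e f_r ·)` for `e ∣ N`, `e_r f_r = r` -/
theorem dil_slash_W_C (D : WDatum N r) (e f er fr : ℕ) [NeZero e] (hef : e * f = N)
    (hr : er * fr = r) {k : ℤ} {F : ℍ → ℂ} (hF : IsMF 𝒮ℒ k F) :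
    (dil (e * er) F) ∣[k] W D = (((er : ℂ))⁻¹ * (fr : ℂ) ^ (k - 1)) • dil (e * fr) F := by
  have her0 : er ≠ 0 := by
    rintro rfl
    rw [Nat.zero_mul] at hr
    exact NeZero.ne r hr.symm
  have hfr0 : fr ≠ 0 := by
    rintro rfl
    rw [Nat.mul_zero] at hr
    exact NeZero.ne r hr.symm
  have i1 : NeZero (e * er) := ⟨Nat.mul_ne_zero (NeZero.ne e) her0⟩
  have i2 : NeZero (e * fr) := ⟨Nat.mul_ne_zero (NeZero.ne e) hfr0⟩
  have he : ((e : ℂ) ^ (k - 1)) ≠ 0 := zpow_ne_zero _ (Nat.cast_ne_zero.mpr (NeZero.ne e))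
  have herC : ((er : ℂ)) ≠ 0 := Nat.cast_ne_zero.mpr her0
  have hu : (((natUnit er her0 : ℝˣ) : ℝ) : ℂ) = (er : ℂ) := by
    show (((er : ℝ)) : ℂ) = (er : ℂ)
    simp
  rw [dil_eq_smul_slash k (e * er) F, smul_slash_of_det_pos (det_W_pos D), ← SlashAction.slash_mul,
    heckeDiag_mul_W_C D e f er fr hef hr her0, SlashAction.slash_mul, SlashAction.slash_mul,
    slash_scalar (natUnit er her0) (natUnit_pos er her0), smul_slash_of_det_pos (by
      rw [Matrix.SpecialLinearGroup.det_mapGL]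
      exact one_pos),
    slash_mapGL_of_levelOne hF, smul_slash_of_det_pos (det_heckeDiagMatrix_pos (e * fr)),
    slash_heckeDiagMatrix_eq, smul_smul, smul_smul, hu]
  congr 1
  push_cast
  rw [mul_zpow, mul_zpow, mul_inv]
  have h1 : (er : ℂ) ^ (k - 2) = (er : ℂ) ^ (k - 1) * (er : ℂ)⁻¹ := by
    rw [← zpow_neg_one, ← zpow_add₀ herC]
    congr 1
    ring
  rw [h1]
  have her' : ((er : ℂ) ^ (k - 1)) ≠ 0 := zpow_ne_zero _ herC
  field_simp

section ValuesC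

variable [NeZero (N * r)]

theorem mul_dvd_mul_of_mul_eq' {e f er fr : ℕ} (hef : e * f = N) (hr : er * fr = r) :
    e * er ∣ N * r :=
  Nat.mul_dvd_mul ⟨f, hef.symm⟩ ⟨fr, hr.symm⟩

/-- **`w_r j(q^{e e_r}) = j(q^{e f_r})`** for `e ∣ N`, `e_r f_r = r` -/
theorem wC_jd_C (D : WDatum N r) (e f er fr : ℕ) [NeZero e] (hef : e * f = N) (hr : er * fr = r)
    [NeZero (e * er)] [NeZero (e * fr)]
    (x : repField1 (N * r)) (hx : (x : LaurentSeries ℂ) = coeffEmb ℂ (qExpand ℚ (e * er) jq)) :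
    ((wC D x : repField1 (N * r)) : LaurentSeries ℂ) = coeffEmb ℂ (qExpand ℚ (e * fr) jq) := by
  have hrep : IsRepOf1 (N * r) (x : LaurentSeries ℂ) 12 (dil (e * er) (fun τ : ℍ => E₄ τ ^ 3))
      (dil (e * er) (ModularForm.discriminant : ℍ → ℂ)) := by
    rw [hx]
    exact isRepOf1_jd (N * r) (e * er) (mul_dvd_mul_of_mul_eq' hef hr)
  have hrep' := isRepOf1_jd (N * r) (e * fr)
    (mul_dvd_mul_of_mul_eq' hef ((Nat.mul_comm fr er).trans hr))
  refine eq_nmap_of_spec (nStable_W D) x hrep ?_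
  rw [dil_slash_W_C D e f er fr hef hr Fermat.Agent.S24.RepAll.isMF_E4cube,
    dil_slash_W_C D e f er fr hef hr Fermat.Agent.S24.RepAll.isMF_discriminant,
    qx_smul _ (isQ_of_isMF1 hrep'.ha), qx_smul _ (isQ_of_isMF1 hrep'.hb), ofPS_smul, ofPS_smul,
    hrep'.eq]
  ring

end ValuesC

end Fermat.Agent.S43.LG1.Wr.LevelOne

end
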