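import Mathlib
import Fermat.Agent.S43.LG1.Wr.LevelOne
import Fermat.Agent.S43.LG1.Wr.FrickeExp
import Fermat.Agent.S48.B.B1.FrickeRep

/-!
# PROJECT R (row 37 by S43), gate G2* / LG1Hyp, producer (W): the Fricke automorphism `w_r`.
# File 6 (helper16): `w_r` on the Fricke generators `h_a`

`M = N r`, `W = (r, m; N r, r d₀)`.  With `℘_a = wpP M a` (main's Weierstrass forms):
`diag(M, 1) W = r (r, N m; 1, d₀) diag(N, 1)`, hence
`℘_a ∣[2] W = r⁻¹ G_a`, `G_a(τ) = wpTors M (a r) (a N m) (N τ)` = the division value at the point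
`a τ + a m / r` of the lattice `ℤ + N τ ℤ` (the point `ζ_r^{a m} q^a` of `Tate(q^N)`), and

`w_r h_a = (E₄E₆/Δ)(q^N) · ∑ₙ wpCoeff M (a r) (a N m) (r n) qⁿ`.
-/

set_option autoImplicit false
set_option linter.unusedSectionVars false

noncomputable section

namespace Fermat.Agent.S43.LG1.Wr.Fricke

open UpperHalfPlane CongruenceSubgroup Fermat.Agent.S20 Fermat.Agent.S23.QRing
open Fermat.Agent.S48.B.B1.Seams Fermat.Agent.S48.B.B1.RepHom1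
open Fermat.Agent.S43.LG1.Wr.NormAct Fermat.Agent.S43.LG1.Wr.Matrix Fermat.Agent.S43.LG1.Wr.RelC
open Fermat.Agent.S43.LG1.Wr.LevelOne Fermat.Agent.S43.LG1.Wr.FrickeExp
open Fermat.Agent.S24.QRep (dil)
open Fermat.Agent.S48.Eis1.KronTors
open Fermat.Agent.S48.B.B1.Wp.Tors Fermat.Agent.S48.B.B1.Wp.Holo Fermat.Agent.S48.B.B1.Wp.QExp
open Fermat.Agent.S48.B.B1.Wp.Forms
open Fermat.Agent.S48.B.B1.FrickeRep Fermat.Agent.S48.B.B1.DegreeRel1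
open Fermat.Agent.S48.B.Defs.Model
open Matrix.SpecialLinearGroup ModularCurve ModularForm EisensteinSeries

open scoped ModularForm Manifold MatrixGroups Pointwise

local notation "Δ" => ModularForm.discriminant

variable {N r : ℕ} [NeZero N] [NeZero r] [NeZero (N * r)]

/-- the division value at the point `a τ + a m / r` of the lattice `ℤ + N τ ℤ` -/
def Gfun (D : WDatum N r) (a : ZMod (N * r)) : ℍ → ℂ := fun τ =>
  wpTors (N * r) (((a.val : ℕ) : ℤ) * r) (((a.val : ℕ) : ℤ) * N * D.m) (scaleH N (NeZero.ne N) τ)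

theorem prim_G (D : WDatum N r) {a : ZMod (N * r)} (ha : a ≠ 0) :
    Prim (N * r) (((a.val : ℕ) : ℤ) * r) (((a.val : ℕ) : ℤ) * N * D.m) := by
  rintro ⟨h1, h2⟩
  apply ha
  have h3 : ((N * r : ℕ) : ℤ) ∣ ((a.val : ℕ) : ℤ) := by
    have e : ((a.val : ℕ) : ℤ) = D.d0 * (((a.val : ℕ) : ℤ) * r) - (((a.val : ℕ) : ℤ) * N * D.m) := by
      have h := D.h
      linear_combination (-((a.val : ℕ) : ℤ)) * h
    rw [e]
    exact dvd_sub (Dvd.dvd.mul_left h1 _) h2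
  have h4 : (((a.val : ℕ) : ℤ) : ZMod (N * r)) = 0 :=
    (ZMod.intCast_zmod_eq_zero_iff_dvd _ (N * r)).mpr h3
  rw [Int.cast_natCast, ZMod.natCast_zmod_val] at h4
  exact h4

theorem heckeDiagMatrix_smul_eq_scaleH (τ : ℍ) :
    heckeDiagMatrix N • τ = scaleH N (NeZero.ne N) τ :=
  UpperHalfPlane.ext (by rw [coe_heckeDiagMatrix_smul (NeZero.ne N)]; rfl)

/-- **`℘_a ∣[2] W = r⁻¹ G_a`** -/
theorem wpP_slash_W (D : WDatum N r) {a : ZMod (N * r)} (ha : a ≠ 0) :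
    wpP (N * r) a ∣[(2 : ℤ)] W D = ((r : ℂ)⁻¹) • Gfun D a := by
  have hM : N * r ≠ 0 := NeZero.ne (N * r)
  have hNC : (N : ℂ) ≠ 0 := Nat.cast_ne_zero.mpr (NeZero.ne N)
  have hrC : (r : ℂ) ≠ 0 := Nat.cast_ne_zero.mpr (NeZero.ne r)
  have hu : (((rUnit r : ℝˣ) : ℝ) : ℂ) = (r : ℂ) := by
    show (((r : ℝ)) : ℂ) = (r : ℂ)
    simp
  have e1 : wpTors (N * r) ((a.val : ℕ) : ℤ) 0 ∣[(2 : ℤ)] (mapGL ℝ (gamB D N 1 (mul_one N))) =
      wpTors (N * r) (((a.val : ℕ) : ℤ) * r) (((a.val : ℕ) : ℤ) * N * D.m) := by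
    have h1 : wpTors (N * r) ((a.val : ℕ) : ℤ) 0 ∣[(2 : ℤ)] (mapGL ℝ (gamB D N 1 (mul_one N))) = _ :=
      wpTors_slash hM (prim_val (N * r) ha) (gamB D N 1 (mul_one N))
    rw [h1]
    have e00 : (gamB D N 1 (mul_one N)) 0 0 = (r : ℤ) := rfl
    have e01 : (gamB D N 1 (mul_one N)) 0 1 = (N : ℤ) * D.m := rfl
    rw [e00, e01]
    congr 1
    ring
  unfold wpP wpG
  rw [smul_slash_of_det_pos (det_W_pos D), ← SlashAction.slash_mul,
    heckeDiag_mul_W_B D N 1 (mul_one N), SlashAction.slash_mul, SlashAction.slash_mul,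
    slash_scalar (rUnit r) (rUnit_pos r), smul_slash_of_det_pos (by
      rw [Matrix.SpecialLinearGroup.det_mapGL]
      exact one_pos),
    e1, smul_slash_of_det_pos (det_heckeDiagMatrix_pos N), slash_heckeDiagMatrix_eq, smul_smul,
    smul_smul, hu]
  have e2 : dil N (wpTors (N * r) (((a.val : ℕ) : ℤ) * r) (((a.val : ℕ) : ℤ) * N * D.m)) =
      Gfun D a := by
    funext τ
    show wpTors (N * r) _ _ (heckeDiagMatrix N • τ) = _
    rw [heckeDiagMatrix_smul_eq_scaleH]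
    rfl
  rw [e2]
  congr 1
  push_cast
  rw [zpow_zero, zpow_one]
  field_simp

theorem isMF_wpP_slash_W (D : WDatum N r) {a : ZMod (N * r)} (ha : a ≠ 0) :
    IsMF (G1 (N * r)) 2 (wpP (N * r) a ∣[(2 : ℤ)] W D) :=
  nStable_W D 2 _ (isMF_wpP (N * r) ha)

theorem Gfun_eq_smul (D : WDatum N r) {a : ZMod (N * r)} (ha : a ≠ 0) :
    Gfun D a = (r : ℂ) • (wpP (N * r) a ∣[(2 : ℤ)] W D) := by
  have hrC : (r : ℂ) ≠ 0 := Nat.cast_ne_zero.mpr (NeZero.ne r)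
  rw [wpP_slash_W D ha, smul_smul, mul_inv_cancel₀ hrC, one_smul]

theorem isQ_Gfun (D : WDatum N r) {a : ZMod (N * r)} (ha : a ≠ 0) : IsQ (Gfun D a) := by
  rw [Gfun_eq_smul D ha]
  exact (isQ_of_isMF1 (isMF_wpP_slash_W D ha)).smul _

/-- **the `q`-expansion of `G_a`** -/
theorem qx_Gfun (D : WDatum N r) {a : ZMod (N * r)} (ha : a ≠ 0) :
    qx (Gfun D a) = PowerSeries.mk (fun n =>
      wpCoeff (N * r) (((a.val : ℕ) : ℤ) * r) (((a.val : ℕ) : ℤ) * N * D.m) (r * n)) :=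
  qExpansion_wpTors_scale_div (NeZero.ne N) (NeZero.ne r) (prim_G D ha) (Dvd.intro_left _ rfl)

/-! ### The translate of the numerator `E₄(M·) E₆(M·) ℘_a` -/

theorem dil_EE (e : ℕ) : dil e EE = dil e (⇑E₄) * dil e (⇑E₆) := rfl

theorem cdet_W (D : WDatum N r) : cdet (W D) = (r : ℂ) := by
  unfold cdet
  rw [det_W, abs_of_pos (by exact_mod_cast Nat.pos_of_ne_zero (NeZero.ne r))]
  simp

/-- `(E₄(M·) E₆(M·) ℘_a) ∣[12] W = r⁻¹ E₄(N·) E₆(N·) G_a` -/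
theorem Hnum_slash_W (D : WDatum N r) {a : ZMod (N * r)} (ha : a ≠ 0) :
    (Hnum (N * r) (wpP (N * r) a)) ∣[(12 : ℤ)] W D = ((r : ℂ)⁻¹) • (dil N EE * Gfun D a) := by
  have hrC : (r : ℂ) ≠ 0 := Nat.cast_ne_zero.mpr (NeZero.ne r)
  have h12 : (12 : ℤ) = (4 + 6) + 2 := by norm_num
  have e4 : dil (N * r) (⇑E₄) ∣[(4 : ℤ)] W D = ((r : ℂ)⁻¹) • dil N (⇑E₄) :=
    dil_slash_W_B D N 1 (mul_one N) (IsMF.coe E₄)
  have e6 : dil (N * r) (⇑E₆) ∣[(6 : ℤ)] W D = ((r : ℂ)⁻¹) • dil N (⇑E₆) :=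
    dil_slash_W_B D N 1 (mul_one N) (IsMF.coe E₆)
  rw [Hnum_eq, dil_EE, h12, mul_slash_cdet, mul_slash_cdet, e4, e6, wpP_slash_W D ha, cdet_W,
    dil_EE]
  funext τ
  simp only [Pi.smul_apply, Pi.mul_apply, smul_eq_mul]
  field_simp

theorem toQ {F : ℍ → ℂ} (h : Fermat.Agent.S24.QRep.IsQ F) : IsQ F := ⟨h.per, h.hol, h.bdd⟩

/-- **`w_r h_a = (E₄E₆/Δ)(q^N) · qx G_a`** -/
theorem wC_frickeH (D : WDatum N r) {a : ZMod (N * r)} (ha : a ≠ 0) (x : repField1 (N * r))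
    (hx : (x : LaurentSeries ℂ) = frickeH ℂ (N * r) a) :
    ((wC D x : repField1 (N * r)) : LaurentSeries ℂ) =
      qExpand ℂ N (wNorm ℂ) * ofPS (qx (Gfun D a)) := by
  have hrep : IsRepOf1 (N * r) (x : LaurentSeries ℂ) 12 (Hnum (N * r) (wpP (N * r) a))
      (dil (N * r) (Δ : ℍ → ℂ)) := by
    rw [hx]
    exact isRepOf1_Hnum (N * r) (isMF_wpP (N * r) ha) (qx_wpP (N * r) ha)
  refine eq_nmap_of_spec (nStable_W D) x hrep ?_
  have hΔ : dil (N * r) (Δ : ℍ → ℂ) ∣[(12 : ℤ)] W D = ((r : ℂ)⁻¹) • dil N (Δ : ℍ → ℂ) :=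
    dil_slash_W_B D N 1 (mul_one N) Fermat.Agent.S24.RepAll.isMF_discriminant
  have qΔ : IsQ (dil N (Δ : ℍ → ℂ)) := toQ (Fermat.Agent.S24.QRep.isQ_discriminant.dil N)
  have qE : IsQ (dil N EE) := toQ (isQ_EE.dil N)
  have qG := isQ_Gfun D ha
  have hEE : ofPS (qx (dil N EE)) = qExpand ℂ N (wNorm ℂ) * ofPS (qx (dil N (Δ : ℍ → ℂ))) :=
    ofPS_qExpansion_dil_EE N
  rw [Hnum_slash_W D ha, hΔ, qx_smul _ qΔ, qx_smul _ (qE.mul qG), qx_mul qE qG, ofPS_smul,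
    ofPS_smul, map_mul, hEE]
  ring

end Fermat.Agent.S43.LG1.Wr.Fricke

end
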