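import Mathlib
import Fermat.Agent.S43.LG1.Wr.Fricke
import Fermat.Agent.S43.LG1.Wr.CoeffK
import Fermat.Agent.S43.LG1.Wr.MemDescent
import Fermat.Agent.S48.B.ES.DiamondUnique

/-!
# PROJECT R (row 37 by S43), gate G2* / LG1Hyp, producer (W): the Fricke automorphism `w_r`.
# File 9 (helper16): descent of `w_r` from `ℂ` to `ℚ̄`

`phiC D ι : F1Bar (N r) → ℂ((q))` is the analytic `w_r` (`RelC.wC`) composed with the coefficientwise
embedding `ι : ℚ̄ → ℂ`.  Its values on the generators of `F1Bar (N r)` (constants, `j(q^e)`, `h_a`)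
have coefficients in `ι ℚ̄` (`phiC_algebraMap`, `phiC_jGen`, `phiC_hGen`), hence all its values do
(`mem_of_gen`, `phiC_mem_range`); by `MemDescent` the descended values lie in `F1Bar (N r)`.

* `mem_of_gen`   : a subfield of `L·F1 M` containing the constants, the `j(q^e)` and the `h_a` is
  everything;
* `wHom D ι : F1Bar (N r) →ₐ[ℚ̄] F1Bar (N r)` with `coeffMap_wHom` :
  `ι (w y) = wC (ι y)` coefficientwise;
* `wHom_jGen`, `coe_wHom_hGen` : the values on the generators.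
-/

set_option autoImplicit false
set_option linter.unusedSectionVars false

noncomputable section

namespace Fermat.Agent.S43.LG1.Wr.Descent

open ModularCurve IntermediateField
open Fermat.Agent.S48.B.Defs.Model Fermat.Agent.S48.B.ES.DiamondUnique
open Fermat.Agent.S48.B.B1.RepHom1 Fermat.Agent.S48.B.B1.RepAll1
open Fermat.Agent.S48.Eis1.KronZ
open Fermat.Agent.S43.LG1.Wr.NormAct Fermat.Agent.S43.LG1.Wr.Matrix Fermat.Agent.S43.LG1.Wr.RelC
open Fermat.Agent.S43.LG1.Wr.LevelOne Fermat.Agent.S43.LG1.Wr.Fricke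
open Fermat.Agent.S43.LG1.Wr.CoeffK Fermat.Agent.S43.LG1.Wr.MemDescent

local notation "Kb" => AlgebraicClosure ℚ

/-! ### Generation -/

section Gen

variable (M : ℕ) [NeZero M] {L : Type*} [Field L] [Algebra ℚ L]

theorem mem_of_gen_F1 (S : Subfield (laurentBaseChange L (F1 M)))
    (hc : ∀ c : L, algebraMap L (laurentBaseChange L (F1 M)) c ∈ S)
    (hj : ∀ (e : ℕ) (_ : NeZero e) (he : e ∣ M), jGen M L e he ∈ S)
    (hh : ∀ (a : ZMod M) (ha : a ≠ 0), hGen M L a ha ∈ S)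
    {z : LaurentSeries ℚ} (hz : z ∈ F1 M) :
    (⟨coeffEmb L z, coeffEmb_mem_laurentBaseChange L hz⟩ : laurentBaseChange L (F1 M)) ∈ S := by
  have hz' : z ∈ IntermediateField.adjoin ℚ (divisorExpansions M ∪ frickeGenerators M) := hz
  induction hz' using IntermediateField.adjoin_induction with
  | mem y hy =>
      rcases hy with ⟨d, hd0, hd, rfl⟩ | ⟨a, ha, rfl⟩
      · exact hj d hd0 hd
      · exact hh a ha
  | algebraMap q =>
      have e1 : (⟨coeffEmb L (algebraMap ℚ (LaurentSeries ℚ) q),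
          coeffEmb_mem_laurentBaseChange L hz⟩ : laurentBaseChange L (F1 M)) =
          algebraMap L (laurentBaseChange L (F1 M)) (algebraMap ℚ L q) := by
        apply Subtype.ext
        exact coeffMap_algebraMap_of_ringHom (algebraMap ℚ L) q
      rw [e1]
      exact hc _
  | add y z hy hz' ihy ihz =>
      have e1 : (⟨coeffEmb L (y + z), coeffEmb_mem_laurentBaseChange L hz⟩ :
          laurentBaseChange L (F1 M)) =
          ⟨coeffEmb L y, coeffEmb_mem_laurentBaseChange L hy⟩ +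
            ⟨coeffEmb L z, coeffEmb_mem_laurentBaseChange L hz'⟩ :=
        Subtype.ext (map_add _ _ _)
      rw [e1]
      exact add_mem (ihy hy) (ihz hz')
  | inv y hy ihy =>
      have e1 : (⟨coeffEmb L y⁻¹, coeffEmb_mem_laurentBaseChange L hz⟩ :
          laurentBaseChange L (F1 M)) =
          (⟨coeffEmb L y, coeffEmb_mem_laurentBaseChange L hy⟩ : laurentBaseChange L (F1 M))⁻¹ :=
        Subtype.ext (map_inv₀ _ _)
      rw [e1]
      exact inv_mem (ihy hy)
  | mul y z hy hz' ihy ihz =>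
      have e1 : (⟨coeffEmb L (y * z), coeffEmb_mem_laurentBaseChange L hz⟩ :
          laurentBaseChange L (F1 M)) =
          ⟨coeffEmb L y, coeffEmb_mem_laurentBaseChange L hy⟩ *
            ⟨coeffEmb L z, coeffEmb_mem_laurentBaseChange L hz'⟩ :=
        Subtype.ext (map_mul _ _ _)
      rw [e1]
      exact mul_mem (ihy hy) (ihz hz')

/-- **a subfield of `L·F1 M` containing the constants and the generators `j(q^e)`, `h_a` is
everything** -/
theorem mem_of_gen (S : Subfield (laurentBaseChange L (F1 M)))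
    (hc : ∀ c : L, algebraMap L (laurentBaseChange L (F1 M)) c ∈ S)
    (hj : ∀ (e : ℕ) (_ : NeZero e) (he : e ∣ M), jGen M L e he ∈ S)
    (hh : ∀ (a : ZMod M) (ha : a ≠ 0), hGen M L a ha ∈ S)
    (x : laurentBaseChange L (F1 M)) : x ∈ S := by
  obtain ⟨x, hx⟩ := x
  have hx' := mem_laurentBaseChange_iff.mp hx
  induction hx' using Subfield.closure_induction with
  | mem y hy =>
      rcases hy with ⟨c, rfl⟩ | ⟨z, hz, rfl⟩
      · exact hc c
      · exact mem_of_gen_F1 M S hc hj hh hz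
  | one => exact one_mem S
  | add y z hy hz ihy ihz =>
      have e1 : (⟨y + z, hx⟩ : laurentBaseChange L (F1 M)) = ⟨y, hy⟩ + ⟨z, hz⟩ := rfl
      rw [e1]
      exact add_mem (ihy hy) (ihz hz)
  | neg y hy ihy =>
      have e1 : (⟨-y, hx⟩ : laurentBaseChange L (F1 M)) = -⟨y, hy⟩ := rfl
      rw [e1]
      exact neg_mem (ihy hy)
  | inv y hy ihy =>
      have e1 : (⟨y⁻¹, hx⟩ : laurentBaseChange L (F1 M)) =
          (⟨y, hy⟩ : laurentBaseChange L (F1 M))⁻¹ := rfl
      rw [e1]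
      exact inv_mem (ihy hy)
  | mul y z hy hz ihy ihz =>
      have e1 : (⟨y * z, hx⟩ : laurentBaseChange L (F1 M)) = ⟨y, hy⟩ * ⟨z, hz⟩ := rfl
      rw [e1]
      exact mul_mem (ihy hy) (ihz hz)

end Gen

/-! ### The analytic map on `F1Bar (N r)` -/

variable {N r : ℕ} [NeZero N] [NeZero r] [NeZero (N * r)]
variable (D : WDatum N r) (ι : Kb →+* ℂ)

/-- `ι`, coefficientwise, followed by the analytic `w_r` -/
def phiC : F1Bar (N * r) →+* LaurentSeries ℂ :=
  (repField1 (N * r)).subtype.comp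
    ((wC D).comp (toRepField1 (N * r) ι (Fermat.Agent.S48.B.B1.Main.repLe (N * r))))

theorem phiC_apply (y : F1Bar (N * r)) :
    phiC D ι y =
      ((wC D (toRepField1 (N * r) ι (Fermat.Agent.S48.B.B1.Main.repLe (N * r)) y) :
        repField1 (N * r)) : LaurentSeries ℂ) := rfl

theorem phiC_algebraMap (c : Kb) :
    phiC D ι (algebraMap Kb (F1Bar (N * r)) c) =
      coeffMap ι (algebraMap Kb (LaurentSeries Kb) c) := by
  rw [phiC_apply, toRepField1_algebraMap, wC_const, algebraMap_laurentSeries_eq_single,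
    coeffMap_single]
  rfl

theorem phiC_jGen (e f er fr : ℕ) [NeZero e] [NeZero (e * er)] [NeZero (e * fr)]
    (hef : e * f = N) (hr : er * fr = r) (he : e * er ∣ N * r) :
    phiC D ι (jGen (N * r) Kb (e * er) he) =
      coeffMap ι (coeffEmb Kb (qExpand ℚ (e * fr) jq)) := by
  rw [phiC_apply, coeffMap_coeffEmb_of_ringHom]
  exact wC_jd_C D e f er fr hef hr _ (coeffMap_coeffEmb_of_ringHom ι _)

theorem qx_Gfun_eq_map {a : ZMod (N * r)} (ha : a ≠ 0) {ζ0 : Kb}
    (hζ : ι ζ0 = ee ((D.m : ℂ) / (r : ℂ))) :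
    Fermat.Agent.S23.QRing.qx (Gfun D a) = (muSeries Kb N r a ζ0).map ι := by
  rw [qx_Gfun D ha, map_muSeries]
  ext n
  rw [PowerSeries.coeff_mk, coeff_muSeries, hζ,
    Fermat.Agent.S43.LG1.Wr.CoeffK.wpCoeff_eq_wpCoeffK,
    zetaN_mul_eq (NeZero.ne N) (NeZero.ne r)]

theorem phiC_hGen {a : ZMod (N * r)} (ha : a ≠ 0) {ζ0 : Kb}
    (hζ : ι ζ0 = ee ((D.m : ℂ) / (r : ℂ))) :
    phiC D ι (hGen (N * r) Kb a ha) = coeffMap ι (frickeMu Kb N r a ζ0) := by
  have hx : ((toRepField1 (N * r) ι (Fermat.Agent.S48.B.B1.Main.repLe (N * r))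
      (hGen (N * r) Kb a ha) : repField1 (N * r)) : LaurentSeries ℂ) = frickeH ℂ (N * r) a := by
    rw [coe_toRepField1]
    show coeffMap ι (coeffEmb Kb (frickeH ℚ (N * r) a)) = frickeH ℂ (N * r) a
    rw [coeffMap_coeffEmb_of_ringHom, coeffEmb_frickeH]
  rw [phiC_apply, wC_frickeH D ha _ hx, qx_Gfun_eq_map D ι ha hζ]
  unfold frickeMu
  rw [map_mul, Fermat.Agent.S28.PrimeCaseForm.coeffMap_qExpand, coeffMap_wNorm,
    coeffMap_ofPowerSeries]

/-- **the values of `phiC` have coefficients in `ι ℚ̄`** -/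
theorem phiC_mem_range (y : F1Bar (N * r)) :
    phiC D ι y ∈ (coeffMap ι : LaurentSeries Kb →+* LaurentSeries ℂ).fieldRange := by
  obtain ⟨ζ0, hζ⟩ := exists_preimage_root ι (NeZero.ne r) (ee ((D.m : ℂ) / (r : ℂ)))
    (ee_div_pow D.m (NeZero.ne r))
  refine mem_of_gen (N * r)
    (((coeffMap ι : LaurentSeries Kb →+* LaurentSeries ℂ).fieldRange).comap (phiC D ι))
    ?_ ?_ ?_ y
  · intro c
    exact ⟨_, (phiC_algebraMap D ι c).symm⟩
  · intro e he0 he
    obtain ⟨e1, e2, h1, h2, rfl⟩ := (Nat.dvd_mul).mp he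
    obtain ⟨f1, hf1⟩ := h1
    obtain ⟨f2, hf2⟩ := h2
    have hf2' : f2 ≠ 0 := by
      rintro rfl
      exact NeZero.ne r (by rw [hf2, mul_zero])
    have he1 : e1 ≠ 0 := fun h => NeZero.ne (e1 * e2) (by rw [h, zero_mul])
    have : NeZero e1 := ⟨he1⟩
    have : NeZero (e1 * f2) := ⟨Nat.mul_ne_zero he1 hf2'⟩
    exact ⟨_, (phiC_jGen D ι e1 f1 e2 f2 hf1.symm hf2.symm he).symm⟩
  · intro a ha
    exact ⟨_, (phiC_hGen D ι ha hζ).symm⟩

/-! ### The descended map -/

/-- `w_r` with values in `ℚ̄((q))` -/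
def wL : F1Bar (N * r) →+* LaurentSeries Kb :=
  (((coeffMap ι : LaurentSeries Kb →+* LaurentSeries ℂ).rangeRestrictFieldEquiv.symm :
      (coeffMap ι : LaurentSeries Kb →+* LaurentSeries ℂ).fieldRange →+* LaurentSeries Kb)).comp
    ((phiC D ι).codRestrict (coeffMap ι : LaurentSeries Kb →+* LaurentSeries ℂ).fieldRange
      (phiC_mem_range D ι))

theorem coeffMap_wL (y : F1Bar (N * r)) : coeffMap ι (wL D ι y) = phiC D ι y :=
  RingHom.rangeRestrictFieldEquiv_apply_symm_apply _ _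

theorem wL_mem (y : F1Bar (N * r)) : wL D ι y ∈ F1Bar (N * r) := by
  apply mem_F1Bar_of_coeffMap_mem (N * r) ι
  rw [coeffMap_wL, phiC_apply]
  have h := Fermat.Agent.S48.B.B1.Main.repEq (N * r)
  have h2 : ((wC D (toRepField1 (N * r) ι (Fermat.Agent.S48.B.B1.Main.repLe (N * r)) y) :
      repField1 (N * r)) : LaurentSeries ℂ) ∈
      (laurentBaseChange ℂ (F1 (N * r)) : Set (LaurentSeries ℂ)) := by
    rw [h]
    exact (wC D (toRepField1 (N * r) ι (Fermat.Agent.S48.B.B1.Main.repLe (N * r)) y)).2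
  exact h2

/-- `w_r` as a ring endomorphism of `F1Bar (N r)` -/
def wRing : F1Bar (N * r) →+* F1Bar (N * r) :=
  (wL D ι).codRestrict (F1Bar (N * r)) (wL_mem D ι)

theorem coe_wRing (y : F1Bar (N * r)) :
    ((wRing D ι y : F1Bar (N * r)) : LaurentSeries Kb) = wL D ι y := rfl

/-- **`ι (w y) = w_ℂ (ι y)`** -/
theorem coeffMap_wRing (y : F1Bar (N * r)) :
    coeffMap ι ((wRing D ι y : F1Bar (N * r)) : LaurentSeries Kb) = phiC D ι y := by
  rw [coe_wRing, coeffMap_wL]

theorem toRep_wRing (y : F1Bar (N * r)) :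
    toRepField1 (N * r) ι (Fermat.Agent.S48.B.B1.Main.repLe (N * r)) (wRing D ι y) =
      wC D (toRepField1 (N * r) ι (Fermat.Agent.S48.B.B1.Main.repLe (N * r)) y) :=
  Subtype.ext (coeffMap_wRing D ι y)

theorem wRing_algebraMap (c : Kb) :
    wRing D ι (algebraMap Kb (F1Bar (N * r)) c) = algebraMap Kb (F1Bar (N * r)) c := by
  apply Subtype.ext
  apply (coeffMap ι).injective
  rw [coeffMap_wRing, phiC_algebraMap]
  rfl

/-- **`w_r` as an endomorphism of `F1Bar (N r)` over `ℚ̄`** -/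
def wHom : F1Bar (N * r) →ₐ[Kb] F1Bar (N * r) :=
  { wRing D ι with commutes' := wRing_algebraMap D ι }

theorem wHom_apply (y : F1Bar (N * r)) : wHom D ι y = wRing D ι y := rfl

/-- **`ι (w y) = w_ℂ (ι y)`** -/
theorem coeffMap_wHom (y : F1Bar (N * r)) :
    coeffMap ι ((wHom D ι y : F1Bar (N * r)) : LaurentSeries Kb) = phiC D ι y :=
  coeffMap_wRing D ι y

theorem toRep_wHom (y : F1Bar (N * r)) :
    toRepField1 (N * r) ι (Fermat.Agent.S48.B.B1.Main.repLe (N * r)) (wHom D ι y) =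
      wC D (toRepField1 (N * r) ι (Fermat.Agent.S48.B.B1.Main.repLe (N * r)) y) :=
  toRep_wRing D ι y

/-- **`w j(q^{e e_r}) = j(q^{e f_r})`** -/
theorem wHom_jGen (e f er fr : ℕ) [NeZero e] [NeZero (e * er)] [NeZero (e * fr)]
    (hef : e * f = N) (hr : er * fr = r) (he : e * er ∣ N * r) (he' : e * fr ∣ N * r) :
    wHom D ι (jGen (N * r) Kb (e * er) he) = jGen (N * r) Kb (e * fr) he' := by
  apply Subtype.ext
  apply (coeffMap ι).injective
  rw [coeffMap_wHom, phiC_jGen D ι e f er fr hef hr he]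
  rfl

/-- **`w h_a = (E₄E₆/Δ)(q^N) (12 X(ζ₀^a, q^N) + 1)`** -/
theorem coe_wHom_hGen {a : ZMod (N * r)} (ha : a ≠ 0) {ζ0 : Kb}
    (hζ : ι ζ0 = ee ((D.m : ℂ) / (r : ℂ))) :
    ((wHom D ι (hGen (N * r) Kb a ha) : F1Bar (N * r)) : LaurentSeries Kb) =
      frickeMu Kb N r a ζ0 := by
  apply (coeffMap ι).injective
  rw [coeffMap_wHom, phiC_hGen D ι ha hζ]

end Fermat.Agent.S43.LG1.Wr.Descent

end
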