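import Mathlib
import Fermat.Agent.S43.LG1.Wr.Descent
import Fermat.Agent.S43.LG1.Fricke.Seam

/-!
# PROJECT R (row 37 by S43), gate G2* / LG1Hyp, producer (W): the Fricke automorphism `w_r`.
# File 10 (helper16): **`HasFricke N r`** for coprime `N`, `r`

The descended `w = Descent.wHom D ι` of `F1Bar (N r)`:

* `coe_dC_toRep`  : the analytic slash by `σ ∈ Γ₀(M)` IS the diamond automorphism `⟨σ₀₀⟩` of
  `F1Bar M` (bridge from `B1/Main.diamondAn` and `ES/DiamondUnique.isDiamondAut_coeffMap_apply`);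
* `wHom_wHom`     : `w ∘ w = ⟨r + m N⟩` (from `W² = r·σ₀`), hence `w` is bijective: `wEquiv`;
* `wEquiv_swap`   : `w j(q^{N r}) = j(q^N)`, `w j(q^N) = j(q^{N r})`;
* `wEquiv_diamond`: `w ⟨d⟩ = ⟨d⟩⁻¹ w` for `d ≡ 1 mod N` (from `W σ' W⁻¹ ∈ Γ₀(N r)` with upper left
  entry `≡ σ'₀₀ mod N`, `≡ σ'₁₁ mod r`);
* `wEquiv_galois` : `σ w = w ⟨d⟩ σ` when `σ` acts on `μ_r` by `ζ ↦ ζ^d`, `d ≡ 1 mod N` (the
  coefficients of `w h_a` are polynomial in `ζ₀^a`, `Descent.coe_wHom_hGen` + `CoeffK.muSeries_unit_mul`);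
* **`hasFricke (h : N.Coprime r) : Seam.HasFricke N r`**.
-/

set_option autoImplicit false
set_option linter.unusedSectionVars false

noncomputable section

namespace Fermat.Agent.S43.LG1.Wr.Main

open ModularCurve IntermediateField CongruenceSubgroup UpperHalfPlane
open Fermat.Agent.S48.B.Defs.Model Fermat.Agent.S48.B.ES.DiamondUnique
open Fermat.Agent.S48.B.B1.RepHom1 Fermat.Agent.S48.B.B1.RepAll1
open Fermat.Agent.S48.Eis1.KronZ
open Fermat.Agent.S43.LG1.Wr.NormAct Fermat.Agent.S43.LG1.Wr.Matrix Fermat.Agent.S43.LG1.Wr.RelC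
open Fermat.Agent.S43.LG1.Wr.LevelOne Fermat.Agent.S43.LG1.Wr.Fricke
open Fermat.Agent.S43.LG1.Wr.CoeffK Fermat.Agent.S43.LG1.Wr.MemDescent
open Fermat.Agent.S43.LG1.Wr.Descent
open Fermat.Agent.S43.LG1.Fricke.Seam

open scoped MatrixGroups ModularForm

local notation "Kb" => AlgebraicClosure ℚ

/-! ### Analytic and algebraic diamonds -/

/-- **the slash by `σ ∈ Γ₀(M)` is the diamond automorphism `⟨σ₀₀⟩`** -/
theorem coe_dC_toRep {M : ℕ} [NeZero M] (ι : Kb →+* ℂ) {σ : SL(2, ℤ)} (hσ : σ ∈ Gamma0 M)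
    {d : (ZMod M)ˣ} (hd : (d : ZMod M) = ((σ 0 0 : ℤ) : ZMod M))
    {δ : F1Bar M ≃ₐ[Kb] F1Bar M} (hδ : IsDiamondAut M Kb d δ) (y : F1Bar M) :
    ((dC σ hσ (toRepField1 M ι (Fermat.Agent.S48.B.B1.Main.repLe M) y) : repField1 M) :
        LaurentSeries ℂ) = coeffMap ι ((δ y : F1Bar M) : LaurentSeries Kb) := by
  obtain ⟨δC, hδC, hspec⟩ := Fermat.Agent.S48.B.B1.Main.diamondAn M σ hσ d hd
  obtain ⟨k, A, B, hrep⟩ := (toRepField1 M ι (Fermat.Agent.S48.B.B1.Main.repLe M) y).2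
  rw [isDiamondAut_coeffMap_apply ι hδ hδC y]
  refine eq_nmap_of_spec (nStable_Gamma0 hσ) _ hrep ?_
  exact (hspec (baseChangeMap ι (F1 M) y) k A B hrep).symm

theorem toRep_diamond {M : ℕ} [NeZero M] (ι : Kb →+* ℂ) {σ : SL(2, ℤ)} (hσ : σ ∈ Gamma0 M)
    {d : (ZMod M)ˣ} (hd : (d : ZMod M) = ((σ 0 0 : ℤ) : ZMod M))
    {δ : F1Bar M ≃ₐ[Kb] F1Bar M} (hδ : IsDiamondAut M Kb d δ) (y : F1Bar M) :
    toRepField1 M ι (Fermat.Agent.S48.B.B1.Main.repLe M) (δ y) =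
      dC σ hσ (toRepField1 M ι (Fermat.Agent.S48.B.B1.Main.repLe M) y) :=
  Subtype.ext (coe_dC_toRep ι hσ hd hδ y).symm

/-- the entries of `σ ∈ Γ₀(M)` modulo `M` -/
theorem diag_mul_of_mem_Gamma0 {M : ℕ} {σ : SL(2, ℤ)} (hσ : σ ∈ Gamma0 M) :
    ((σ 0 0 : ℤ) : ZMod M) * ((σ 1 1 : ℤ) : ZMod M) = 1 := by
  rw [Gamma0_mem] at hσ
  have hdet : σ 0 0 * σ 1 1 - σ 0 1 * σ 1 0 = 1 := by
    have := Matrix.SpecialLinearGroup.det_coe σ
    rwa [Matrix.det_fin_two] at this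
  have h := congrArg (Int.cast : ℤ → ZMod M) hdet
  push_cast at h
  rw [hσ, mul_zero, sub_zero] at h
  exact h

theorem exists_unit_of_mem_Gamma0 {M : ℕ} {σ : SL(2, ℤ)} (hσ : σ ∈ Gamma0 M) :
    ∃ d : (ZMod M)ˣ, (d : ZMod M) = ((σ 0 0 : ℤ) : ZMod M) :=
  ⟨⟨((σ 0 0 : ℤ) : ZMod M), ((σ 1 1 : ℤ) : ZMod M), diag_mul_of_mem_Gamma0 hσ, by
    rw [mul_comm]
    exact diag_mul_of_mem_Gamma0 hσ⟩, rfl⟩

theorem exists_mul_of_mem_Gamma0 {N r : ℕ} {σ : SL(2, ℤ)} (hσ : σ ∈ Gamma0 (N * r)) :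
    ∃ c' : ℤ, σ 1 0 = (N : ℤ) * r * c' := by
  rw [Gamma0_mem] at hσ
  obtain ⟨c', hc'⟩ := (CharP.intCast_eq_zero_iff (ZMod (N * r)) (N * r) _).mp hσ
  refine ⟨c', ?_⟩
  rw [hc']
  push_cast
  ring

/-! ### The relations -/

variable {N r : ℕ} [NeZero N] [NeZero r] [NeZero (N * r)]
variable (D : WDatum N r) (ι : Kb →+* ℂ)

/-- **`w ∘ w = ⟨r + m N⟩`** -/
theorem wHom_wHom {d0 : (ZMod (N * r))ˣ}
    (hd0 : (d0 : ZMod (N * r)) = (((sigma0 D) 0 0 : ℤ) : ZMod (N * r)))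
    {δ : F1Bar (N * r) ≃ₐ[Kb] F1Bar (N * r)} (hδ : IsDiamondAut (N * r) Kb d0 δ)
    (y : F1Bar (N * r)) : wHom D ι (wHom D ι y) = δ y := by
  apply Subtype.ext
  apply (coeffMap ι).injective
  rw [coeffMap_wHom, phiC_apply, toRep_wHom, wC_wC,
    coe_dC_toRep ι (sigma0_mem_Gamma0 D) hd0 hδ]

theorem wHom_bijective : Function.Bijective (wHom D ι) := by
  obtain ⟨d0, hd0⟩ := exists_unit_of_mem_Gamma0 (sigma0_mem_Gamma0 D)
  have hδ := Fermat.Agent.S48.B.B1.Main.isDiamondAut_diamondAut (N * r) Kb d0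
  refine ⟨(wHom D ι).toRingHom.injective, fun z =>
    ⟨wHom D ι ((diamondAut (N * r) Kb d0).symm z), ?_⟩⟩
  rw [wHom_wHom D ι hd0 hδ, AlgEquiv.apply_symm_apply]

/-- **the `r`-part Fricke automorphism of `ℚ̄(X₁(N r))`** -/
def wEquiv : F1Bar (N * r) ≃ₐ[Kb] F1Bar (N * r) :=
  AlgEquiv.ofBijective (wHom D ι) (wHom_bijective D ι)

theorem wEquiv_apply (y : F1Bar (N * r)) : wEquiv D ι y = wHom D ι y := rfl

/-- **`w j(q^{N r}) = j(q^N)` and back** -/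
theorem wEquiv_swap (y y' : F1Bar (N * r))
    (hy : (y : LaurentSeries Kb) = coeffEmb Kb (qExpand ℚ (N * r) jq))
    (hy' : (y' : LaurentSeries Kb) = coeffEmb Kb (qExpand ℚ N jq)) :
    wEquiv D ι y = y' ∧ wEquiv D ι y' = y := by
  constructor
  · apply Subtype.ext
    apply (coeffMap ι).injective
    rw [wEquiv_apply, coeffMap_wHom, phiC_apply, hy', coeffMap_coeffEmb_of_ringHom]
    refine wC_jd_B D N 1 (mul_one N) _ ?_
    rw [coe_toRepField1, hy, coeffMap_coeffEmb_of_ringHom]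
  · apply Subtype.ext
    apply (coeffMap ι).injective
    rw [wEquiv_apply, coeffMap_wHom, phiC_apply, hy, coeffMap_coeffEmb_of_ringHom]
    refine wC_jd_A D N 1 (mul_one N) _ ?_
    rw [coe_toRepField1, hy', coeffMap_coeffEmb_of_ringHom]

/-- the upper left entry of `W σ' W⁻¹` modulo `N r` -/
theorem conjW_entry {d : (ZMod (N * r))ˣ} (hd : IsRPart N r d) {σ' : SL(2, ℤ)}
    (hσ' : σ' ∈ Gamma0 (N * r))
    (hd' : ((d⁻¹ : (ZMod (N * r))ˣ) : ZMod (N * r)) = ((σ' 0 0 : ℤ) : ZMod (N * r))) (c' : ℤ)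
    (hc : σ' 1 0 = (N : ℤ) * r * c') :
    (d : ZMod (N * r)) = (((conjW D σ' c' hc) 0 0 : ℤ) : ZMod (N * r)) := by
  have h1 := diag_mul_of_mem_Gamma0 hσ'
  rw [← hd'] at h1
  have hB : ((σ' 1 1 : ℤ) : ZMod (N * r)) = (d : ZMod (N * r)) := by
    have : (d : ZMod (N * r)) * (((d⁻¹ : (ZMod (N * r))ˣ) : ZMod (N * r)) *
        ((σ' 1 1 : ℤ) : ZMod (N * r))) = (d : ZMod (N * r)) := by rw [h1, mul_one]
    rwa [← mul_assoc, Units.mul_inv, one_mul] at this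
  obtain ⟨t, ht⟩ := exists_eq_one_add_mul (N := N) (r := r) hd
  have h2 := congrArg (Int.cast : ℤ → ZMod (N * r)) D.h
  push_cast at h2
  have h4 : (N : ZMod (N * r)) * (r : ZMod (N * r)) = 0 := by
    rw [← Nat.cast_mul, ZMod.natCast_self]
  have e00 : (conjW D σ' c' hc) 0 0 =
      ((r : ℤ) * σ' 0 0 + D.m * N * r * c') * D.d0 - N * (r * σ' 0 1 + D.m * σ' 1 1) := rfl
  rw [e00]
  push_cast
  rw [← hd', hB]
  rw [hB] at h1
  set A : ZMod (N * r) := ((d⁻¹ : (ZMod (N * r))ˣ) : ZMod (N * r)) with hA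
  set B : ZMod (N * r) := (d : ZMod (N * r)) with hB'
  linear_combination (-B) * h2 - ((r : ZMod (N * r)) * D.d0 * B) * h1 +
    ((r : ZMod (N * r)) * D.d0 * A * (1 + B)) * ht +
    ((D.d0 : ZMod (N * r)) * A * (1 + B) * t - (D.m * c' * D.d0 - ((σ' 0 1 : ℤ) : ZMod (N * r)))) * h4

/-- **`w ⟨d⟩ = ⟨d⟩⁻¹ w`** for the diamonds of the `r`-part -/
theorem wEquiv_diamond (d : (ZMod (N * r))ˣ) (δ : F1Bar (N * r) ≃ₐ[Kb] F1Bar (N * r))
    (hδ : IsDiamondAut (N * r) Kb d δ) (hd : IsRPart N r d) (x : F1Bar (N * r)) :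
    wEquiv D ι (δ x) = δ.symm (wEquiv D ι x) := by
  obtain ⟨σ', hσ', hd'⟩ := Fermat.Agent.S48.B.B1.Diamond.exists_mem_Gamma0 (M := N * r) d⁻¹
  obtain ⟨c', hc⟩ := exists_mul_of_mem_Gamma0 hσ'
  have hτ := conjW_mem_Gamma0 D σ' c' hc
  have hdτ := conjW_entry D hd hσ' hd' c' hc
  apply Subtype.ext
  apply (coeffMap ι).injective
  rw [wEquiv_apply, wEquiv_apply, coeffMap_wHom, phiC_apply, toRep_diamond ι hτ hdτ hδ,
    wC_dC D σ' hσ' c' hc, ← toRep_wHom, coe_dC_toRep ι hσ' hd' (isDiamondAut_symm hδ)]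

/-! ### The Galois action -/

theorem arith_smul_eq (σ : Kb ≃ₐ[ℚ] Kb) (x : F1Bar (N * r)) :
    arithmeticGalois (F1 (N * r)) σ • x = arithmeticRingAut (F1 (N * r)) σ x := rfl

theorem arith_jGen (σ : Kb ≃ₐ[ℚ] Kb) (e : ℕ) [NeZero e] (he : e ∣ N * r) :
    arithmeticRingAut (F1 (N * r)) σ (jGen (N * r) Kb e he) = jGen (N * r) Kb e he :=
  Subtype.ext (coeffMap_coeffEmb σ _)

theorem arith_hGen (σ : Kb ≃ₐ[ℚ] Kb) (a : ZMod (N * r)) (ha : a ≠ 0) :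
    arithmeticRingAut (F1 (N * r)) σ (hGen (N * r) Kb a ha) = hGen (N * r) Kb a ha :=
  Subtype.ext (coeffMap_coeffEmb σ _)

/-- **`σ w = w ⟨d⟩ σ`** -/
theorem wEquiv_galois (σ : Kb ≃ₐ[ℚ] Kb) (d : (ZMod (N * r))ˣ)
    (δ : F1Bar (N * r) ≃ₐ[Kb] F1Bar (N * r)) (hδ : IsDiamondAut (N * r) Kb d δ)
    (hd : IsRPart N r d) (hσ : ActsOnMu N r σ d) (x : F1Bar (N * r)) :
    arithmeticGalois (F1 (N * r)) σ • wEquiv D ι x =
      wEquiv D ι (δ (arithmeticGalois (F1 (N * r)) σ • x)) := by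
  obtain ⟨ζ0, hζ⟩ := exists_preimage_root ι (NeZero.ne r) (ee ((D.m : ℂ) / (r : ℂ)))
    (ee_div_pow D.m (NeZero.ne r))
  have hζr : ζ0 ^ r = 1 := by
    apply ι.injective
    rw [map_pow, hζ, ee_div_pow D.m (NeZero.ne r), map_one]
  have key : ((arithmeticRingAut (F1 (N * r)) σ : F1Bar (N * r) →+* F1Bar (N * r))).comp
        ((wEquiv D ι : F1Bar (N * r) ≃ₐ[Kb] F1Bar (N * r)) : F1Bar (N * r) →+* F1Bar (N * r)) =
      ((wEquiv D ι : F1Bar (N * r) ≃ₐ[Kb] F1Bar (N * r)) : F1Bar (N * r) →+* F1Bar (N * r)).comp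
        ((δ : F1Bar (N * r) →+* F1Bar (N * r)).comp
          (arithmeticRingAut (F1 (N * r)) σ : F1Bar (N * r) →+* F1Bar (N * r))) := by
    refine ringHom_ext_baseChange (N * r) _ _ (fun c => ?_) (fun e he0 he => ?_) (fun a ha => ?_)
    · show arithmeticRingAut (F1 (N * r)) σ (wEquiv D ι (algebraMap Kb _ c)) =
        wEquiv D ι (δ (arithmeticRingAut (F1 (N * r)) σ (algebraMap Kb _ c)))
      rw [AlgEquiv.commutes, arithmeticRingAut_algebraMap, AlgEquiv.commutes, AlgEquiv.commutes]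
    · show arithmeticRingAut (F1 (N * r)) σ (wEquiv D ι (jGen (N * r) Kb e he)) =
        wEquiv D ι (δ (arithmeticRingAut (F1 (N * r)) σ (jGen (N * r) Kb e he)))
      rw [arith_jGen, apply_jGen hδ]
      obtain ⟨e1, e2, h1, h2, rfl⟩ := (Nat.dvd_mul).mp he
      obtain ⟨f1, hf1⟩ := h1
      obtain ⟨f2, hf2⟩ := h2
      have hf2' : f2 ≠ 0 := by
        rintro rfl
        exact NeZero.ne r (by rw [hf2, mul_zero])
      have he1 : e1 ≠ 0 := fun h => NeZero.ne (e1 * e2) (by rw [h, zero_mul])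
      have : NeZero e1 := ⟨he1⟩
      have : NeZero (e1 * f2) := ⟨Nat.mul_ne_zero he1 hf2'⟩
      have he' : e1 * f2 ∣ N * r := by
        rw [hf1, hf2]
        exact Nat.mul_dvd_mul (Dvd.intro _ rfl) (Dvd.intro_left _ rfl)
      rw [wEquiv_apply, wHom_jGen D ι e1 f1 e2 f2 hf1.symm hf2.symm he he', arith_jGen]
    · show arithmeticRingAut (F1 (N * r)) σ (wEquiv D ι (hGen (N * r) Kb a ha)) =
        wEquiv D ι (δ (arithmeticRingAut (F1 (N * r)) σ (hGen (N * r) Kb a ha)))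
      rw [arith_hGen, apply_hGen hδ]
      apply Subtype.ext
      rw [coe_arithmeticRingAut_apply, wEquiv_apply, wEquiv_apply, coe_wHom_hGen D ι ha hζ,
        coe_wHom_hGen D ι (unit_mul_ne_zero d ha) hζ, coeffMap_frickeMu]
      show frickeMu Kb N r a (σ ζ0) = _
      rw [hσ ζ0 hζr]
      unfold frickeMu
      rw [muSeries_unit_mul Kb hd hζr a]
  exact RingHom.congr_fun key x

/-! ### The seam -/

/-- a Bezout datum from coprimality -/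
theorem exists_wDatum {N r : ℕ} (h : N.Coprime r) : Nonempty (WDatum N r) := by
  have hc : IsCoprime ((r : ℕ) : ℤ) ((N : ℕ) : ℤ) := Nat.isCoprime_iff_coprime.mpr h.symm
  obtain ⟨u, v, huv⟩ := hc
  exact ⟨⟨-v, u, by linarith⟩⟩

end Fermat.Agent.S43.LG1.Wr.Main

namespace Fermat.Agent.S43.LG1.Wr.Main

open ModularCurve Fermat.Agent.S48.B.Defs.Model Fermat.Agent.S43.LG1.Fricke.Seam
open Fermat.Agent.S43.LG1.Wr.Matrix

/-- **(W): the `r`-part Fricke automorphism of `ℚ̄(X₁(N r))` exists**, `N` and `r` coprime -/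
theorem hasFricke (N r : ℕ) [NeZero N] [NeZero r] (h : N.Coprime r) : HasFricke N r := by
  have : NeZero (N * r) := Fermat.Agent.S43.LG1.Fricke.Seam.instNeZeroMul N r
  obtain ⟨D⟩ := exists_wDatum h
  refine ⟨wEquiv D Fermat.Agent.S48.B.ES.Descent.iotaC, ?_, ?_, ?_⟩
  · intro y y' hy hy'
    exact wEquiv_swap D _ y y' hy hy'
  · intro d δ hδ hd x
    exact wEquiv_diamond D _ d δ hδ hd x
  · intro σ d δ hδ hd hσ x
    exact wEquiv_galois D _ σ d δ hδ hd hσ x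

end Fermat.Agent.S43.LG1.Wr.Main

end
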