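import Mathlib
import Fermat.Agent.S43.LG1.Wr.CoeffK

/-!
# PROJECT R (row 37 by S43), gate G2* / LG1Hyp, node IG, step (i): the explicit generator on the
# second branch (helper16)

For `c` in the `r`-part of `ℤ/N r` (`N ∣ c`, `c ≠ 0`) the series `w h_c = frickeMu K N r c ζ` is
`(E₄E₆/Δ)(q^N) · (12 X(z, q^N) + 1)`, `z = ζ^c` an `r`-th root of unity `≠ 1`: its power series part
has the constant term `12 z/(1-z)² + 1` and all the other coefficients in `(1-z)² ℤ[z, z⁻¹]`.  Hence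
`λ_c := (1-z)²` makes `λ_c · w h_c` integral over every valuation subring `A ∋ z`, and modulo a prime
with `1 - z ∈ 𝔪_A` it is the CONSTANT `12 z` times the `q`-series of `(E₄E₆/Δ)(q^N)`.

* `coeff_zero_muSeries_rpart`, `coeff_muSeries_rpart` : the coefficients;
* `mem_of_pow_eq_one`                  : roots of unity lie in every valuation subring;
* `lamSeries A …  : PowerSeries A`     : `λ_c · muSeries` with coefficients in `A`
  (`map_subtype_lamSeries`), `map_lamSeries` : its reduction is the constant `12 z`;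
* `lamFricke A … : LaurentSeries A`    : `λ_c · w h_c` over `A`; `coeffMap_subtype_lamFricke`,
  **`coeffMap_lamFricke`** : `red (λ_c w h_c) = (12 z)‾ · (E₄E₆/Δ)(q^N)`;
* `one_sub_pow_eq`, `map_geom_sum`     : `1 - ζ^c = (1 - ζ)(1 + ζ + … + ζ^{c-1})`, the second factor
  reduces to `c`.
-/

set_option autoImplicit false
set_option linter.unusedSectionVars false

noncomputable section

namespace Fermat.Agent.S43.LG1.Wr.RPart

open ModularCurve Fermat.Agent.S48.B.Defs.Model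
open Fermat.Agent.S43.LG1.Wr.CoeffK

/-! ### The coefficients on the `r`-part -/

section Coeff

variable (K : Type*) [Field K] {N r : ℕ} [NeZero N] [NeZero r]

theorem cast_rpart {c : ZMod (N * r)} (hc : N ∣ c.val) :
    (((((c.val : ℕ) : ℤ) * r : ℤ)) : ZMod (N * r)) = 0 := by
  obtain ⟨t, ht⟩ := hc
  rw [ht]
  push_cast
  have h0 : (N : ZMod (N * r)) * (r : ZMod (N * r)) = 0 := by
    rw [← Nat.cast_mul, ZMod.natCast_self]
  linear_combination (t : ZMod (N * r)) * h0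

theorem dvd_rpart {c : ZMod (N * r)} (hc : N ∣ c.val) :
    ((N * r : ℕ) : ℤ) ∣ ((c.val : ℕ) : ℤ) * r := by
  rw [← CharP.intCast_eq_zero_iff (ZMod (N * r)) (N * r)]
  exact cast_rpart hc

/-- the constant term of `12 X(z, q^N) + 1` -/
theorem coeff_zero_muSeries_rpart {c : ZMod (N * r)} (hc : N ∣ c.val) (ζ : K) :
    PowerSeries.coeff 0 (muSeries K N r c ζ) =
      12 * (ζ ^ c.val / (1 - ζ ^ c.val) ^ 2) + 1 := by
  rw [coeff_muSeries, mul_zero]
  unfold wpCoeffK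
  rw [if_pos rfl, if_pos (dvd_rpart hc)]

/-- the higher coefficients of `12 X(z, q^N) + 1` -/
theorem coeff_muSeries_rpart {c : ZMod (N * r)} (hc : N ∣ c.val) (ζ : K) {n : ℕ} (hn : n ≠ 0) :
    PowerSeries.coeff n (muSeries K N r c ζ) =
      12 * ∑ d ∈ (r * n).divisors, ((r * n / d : ℕ) : K) *
        (if ((d : ℕ) : ZMod (N * r)) = 0 then
          (ζ ^ c.val) ^ (r * n / d) + (ζ ^ c.val)⁻¹ ^ (r * n / d) - 2 else 0) := by
  rw [coeff_muSeries]
  unfold wpCoeffK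
  rw [if_neg (Nat.mul_ne_zero (NeZero.ne r) hn), cast_rpart hc, neg_zero]
  congr 1
  refine Finset.sum_congr rfl ?_
  intro d _
  by_cases hd : ((d : ℕ) : ZMod (N * r)) = 0
  · simp only [if_pos hd]
    ring
  · simp only [if_neg hd]
    ring

variable {K}

theorem pow_add_inv_pow_sub_two {z : K} (hz : z ≠ 0) (e : ℕ) :
    z ^ e + z⁻¹ ^ e - 2 = (1 - z) ^ 2 * (z⁻¹ ^ e * (∑ i ∈ Finset.range e, z ^ i) ^ 2) := by
  have h1 : (1 - z) * ∑ i ∈ Finset.range e, z ^ i = 1 - z ^ e := by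
    have := mul_neg_geom_sum z e
    linear_combination this
  have h2 : z⁻¹ ^ e * z ^ e = 1 := by
    rw [← mul_pow, inv_mul_cancel₀ hz, one_pow]
  calc z ^ e + z⁻¹ ^ e - 2 = z⁻¹ ^ e * (1 - z ^ e) ^ 2 := by
        linear_combination (-(z ^ e) + 2) * h2
    _ = (1 - z) ^ 2 * (z⁻¹ ^ e * (∑ i ∈ Finset.range e, z ^ i) ^ 2) := by
        rw [← h1]
        ring

/-- **the higher coefficients lie in `(1-z)² S`** for every subring `S ∋ z, z⁻¹` -/
theorem exists_coeff_muSeries_rpart (S : Subring K) {c : ZMod (N * r)} (hc : N ∣ c.val) {ζ : K}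
    (hz0 : ζ ^ c.val ≠ 0) (hz : ζ ^ c.val ∈ S) (hz' : (ζ ^ c.val)⁻¹ ∈ S) {n : ℕ} (hn : n ≠ 0) :
    ∃ t ∈ S, PowerSeries.coeff n (muSeries K N r c ζ) = (1 - ζ ^ c.val) ^ 2 * t := by
  set z := ζ ^ c.val with hzdef
  refine ⟨12 * ∑ d ∈ (r * n).divisors, ((r * n / d : ℕ) : K) *
        (if ((d : ℕ) : ZMod (N * r)) = 0 then
          (z⁻¹ ^ (r * n / d) * (∑ i ∈ Finset.range (r * n / d), z ^ i) ^ 2) else 0), ?_, ?_⟩
  · refine mul_mem (ofNat_mem S 12) (sum_mem fun d _ => ?_)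
    refine mul_mem (natCast_mem S _) ?_
    split_ifs
    · exact mul_mem (pow_mem hz' _) (pow_mem (sum_mem fun i _ => pow_mem hz _) _)
    · exact zero_mem S
  · have hterm : ∀ d : ℕ, ((r * n / d : ℕ) : K) *
        (if ((d : ℕ) : ZMod (N * r)) = 0 then
          z ^ (r * n / d) + z⁻¹ ^ (r * n / d) - 2 else 0) =
        (1 - z) ^ 2 * (((r * n / d : ℕ) : K) *
        (if ((d : ℕ) : ZMod (N * r)) = 0 then
          (z⁻¹ ^ (r * n / d) * (∑ i ∈ Finset.range (r * n / d), z ^ i) ^ 2) else 0)) := by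
      intro d
      by_cases hd : ((d : ℕ) : ZMod (N * r)) = 0
      · rw [if_pos hd, if_pos hd, pow_add_inv_pow_sub_two hz0]
        ring
      · rw [if_neg hd, if_neg hd, mul_zero, mul_zero]
    rw [coeff_muSeries_rpart K hc ζ hn, ← hzdef, Finset.sum_congr rfl (fun d _ => hterm d),
      ← Finset.mul_sum]
    ring

end Coeff

/-! ### Roots of unity in valuation subrings -/

theorem mem_of_pow_eq_one {K : Type*} [Field K] (A : ValuationSubring K) {z : K} {r : ℕ}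
    (hr : r ≠ 0) (hz : z ^ r = 1) : z ∈ A := by
  rcases A.mem_or_inv_mem z with h | h
  · exact h
  · have hz0 : z ≠ 0 := by
      rintro rfl
      rw [zero_pow hr] at hz
      exact zero_ne_one hz
    have : z = z⁻¹ ^ (r - 1) := by
      have h1 : z ^ (r - 1) * z = 1 := by
        rw [← pow_succ, Nat.sub_add_cancel (Nat.one_le_iff_ne_zero.mpr hr), hz]
      rw [inv_pow]
      exact eq_inv_of_mul_eq_one_right h1
    rw [this]
    exact pow_mem h _

theorem inv_mem_of_pow_eq_one {K : Type*} [Field K] (A : ValuationSubring K) {z : K} {r : ℕ}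
    (hr : r ≠ 0) (hz : z ^ r = 1) : z⁻¹ ∈ A :=
  mem_of_pow_eq_one A hr (by rw [inv_pow, hz, inv_one])

theorem one_sub_pow_eq {R : Type*} [CommRing R] (ζ : R) (c : ℕ) :
    1 - ζ ^ c = (1 - ζ) * ∑ i ∈ Finset.range c, ζ ^ i := by
  have := mul_neg_geom_sum ζ c
  linear_combination -this

theorem map_geom_sum {R k : Type*} [CommRing R] [CommRing k] (π : R →+* k) {ζ : R}
    (h : π ζ = 1) (c : ℕ) : π (∑ i ∈ Finset.range c, ζ ^ i) = (c : k) := by
  rw [map_sum]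
  simp [h]

/-! ### `λ_c · w h_c` over a valuation subring -/

section Integral

variable {K : Type*} [Field K] (A : ValuationSubring K) {k : Type*} [Field k] (π : A →+* k)
variable {N r : ℕ} [NeZero N] [NeZero r]

theorem lam_mul_coeff_mem {c : ZMod (N * r)} (hc : N ∣ c.val) {ζ : K} (hζ : ζ ^ r = 1)
    (hne : ζ ^ c.val ≠ 1) (n : ℕ) :
    (1 - ζ ^ c.val) ^ 2 * PowerSeries.coeff n (muSeries K N r c ζ) ∈ A := by
  have hz : ζ ^ c.val ∈ A := pow_mem (mem_of_pow_eq_one A (NeZero.ne r) hζ) _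
  have hz' : (ζ ^ c.val)⁻¹ ∈ A := by
    rw [← inv_pow]
    exact pow_mem (inv_mem_of_pow_eq_one A (NeZero.ne r) hζ) _
  have h1 : (1 - ζ ^ c.val) ∈ A := sub_mem (one_mem A) hz
  have hz0 : ζ ^ c.val ≠ 0 := by
    intro h0
    have : ζ = 0 := pow_eq_zero_iff (n := c.val) (by
      rintro h
      rw [h, pow_zero] at hne
      exact hne rfl) |>.mp h0
    rw [this, zero_pow (NeZero.ne r)] at hζ
    exact zero_ne_one hζ
  by_cases hn : n = 0
  · subst hn
    rw [coeff_zero_muSeries_rpart K hc]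
    have h2 : (1 - ζ ^ c.val) ^ 2 ≠ 0 := pow_ne_zero _ (sub_ne_zero.mpr (Ne.symm hne))
    have : (1 - ζ ^ c.val) ^ 2 * (12 * (ζ ^ c.val / (1 - ζ ^ c.val) ^ 2) + 1) =
        12 * ζ ^ c.val + (1 - ζ ^ c.val) ^ 2 := by
      field_simp
    rw [this]
    exact add_mem (mul_mem (ofNat_mem A 12) hz) (pow_mem h1 _)
  · obtain ⟨t, ht, e⟩ := exists_coeff_muSeries_rpart A.toSubring hc hz0 hz hz' hn
    rw [e]
    exact mul_mem (pow_mem h1 _) (mul_mem (pow_mem h1 _) ht)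

/-- `λ_c · (12 X(z, q^N) + 1)` with coefficients in `A` -/
def lamSeries {c : ZMod (N * r)} (hc : N ∣ c.val) {ζ : K} (hζ : ζ ^ r = 1)
    (hne : ζ ^ c.val ≠ 1) : PowerSeries A :=
  PowerSeries.mk fun n =>
    ⟨(1 - ζ ^ c.val) ^ 2 * PowerSeries.coeff n (muSeries K N r c ζ),
      lam_mul_coeff_mem A hc hζ hne n⟩

theorem map_subtype_lamSeries {c : ZMod (N * r)} (hc : N ∣ c.val) {ζ : K} (hζ : ζ ^ r = 1)
    (hne : ζ ^ c.val ≠ 1) :
    (lamSeries A hc hζ hne).map A.subtype =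
      PowerSeries.C ((1 - ζ ^ c.val) ^ 2) * muSeries K N r c ζ := by
  ext n
  rw [PowerSeries.coeff_map, PowerSeries.coeff_C_mul]
  unfold lamSeries
  rw [PowerSeries.coeff_mk]
  rfl

/-- **the reduction of `λ_c · (12 X(z, q^N) + 1)` is the constant `12 z`** -/
theorem map_lamSeries {c : ZMod (N * r)} (hc : N ∣ c.val) {ζ : K} (hζ : ζ ^ r = 1)
    (hne : ζ ^ c.val ≠ 1)
    (hπ : π ⟨1 - ζ ^ c.val, sub_mem (one_mem A)
      (pow_mem (mem_of_pow_eq_one A (NeZero.ne r) hζ) _)⟩ = 0) :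
    (lamSeries A hc hζ hne).map π =
      PowerSeries.C (π ⟨12 * ζ ^ c.val, mul_mem (ofNat_mem A 12)
        (pow_mem (mem_of_pow_eq_one A (NeZero.ne r) hζ) _)⟩) := by
  have hz : ζ ^ c.val ∈ A := pow_mem (mem_of_pow_eq_one A (NeZero.ne r) hζ) _
  have hz' : (ζ ^ c.val)⁻¹ ∈ A := by
    rw [← inv_pow]
    exact pow_mem (inv_mem_of_pow_eq_one A (NeZero.ne r) hζ) _
  have h1 : (1 - ζ ^ c.val) ∈ A := sub_mem (one_mem A) hz
  have hz0 : ζ ^ c.val ≠ 0 := by
    intro h0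
    have : ζ = 0 := pow_eq_zero_iff (n := c.val) (by
      rintro h
      rw [h, pow_zero] at hne
      exact hne rfl) |>.mp h0
    rw [this, zero_pow (NeZero.ne r)] at hζ
    exact zero_ne_one hζ
  ext n
  rw [PowerSeries.coeff_map, PowerSeries.coeff_C]
  unfold lamSeries
  rw [PowerSeries.coeff_mk]
  by_cases hn : n = 0
  · subst hn
    rw [if_pos rfl]
    have h2 : (1 - ζ ^ c.val) ^ 2 ≠ 0 := pow_ne_zero _ (sub_ne_zero.mpr (Ne.symm hne))
    have e1 : (⟨(1 - ζ ^ c.val) ^ 2 * PowerSeries.coeff 0 (muSeries K N r c ζ),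
        lam_mul_coeff_mem A hc hζ hne 0⟩ : A) =
        ⟨12 * ζ ^ c.val, mul_mem (ofNat_mem A 12) hz⟩ +
          ⟨1 - ζ ^ c.val, h1⟩ ^ 2 := by
      apply Subtype.ext
      show (1 - ζ ^ c.val) ^ 2 * PowerSeries.coeff 0 (muSeries K N r c ζ) =
        12 * ζ ^ c.val + (1 - ζ ^ c.val) ^ 2
      rw [coeff_zero_muSeries_rpart K hc]
      field_simp
    rw [e1, map_add, map_pow, hπ, zero_pow two_ne_zero, add_zero]
  · rw [if_neg hn]
    obtain ⟨t, ht, e⟩ := exists_coeff_muSeries_rpart A.toSubring hc hz0 hz hz' hn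
    have e1 : (⟨(1 - ζ ^ c.val) ^ 2 * PowerSeries.coeff n (muSeries K N r c ζ),
        lam_mul_coeff_mem A hc hζ hne n⟩ : A) =
        ⟨1 - ζ ^ c.val, h1⟩ ^ 2 * (⟨1 - ζ ^ c.val, h1⟩ ^ 2 * ⟨t, ht⟩) := by
      apply Subtype.ext
      show (1 - ζ ^ c.val) ^ 2 * PowerSeries.coeff n (muSeries K N r c ζ) =
        (1 - ζ ^ c.val) ^ 2 * ((1 - ζ ^ c.val) ^ 2 * t)
      rw [e]
    rw [e1, map_mul, map_pow, hπ, zero_pow two_ne_zero, zero_mul]

/-- **`λ_c · w h_c` with coefficients in `A`** -/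
def lamFricke {c : ZMod (N * r)} (hc : N ∣ c.val) {ζ : K} (hζ : ζ ^ r = 1)
    (hne : ζ ^ c.val ≠ 1) : LaurentSeries A :=
  qExpand A N (wNorm A) * HahnSeries.ofPowerSeries ℤ A (lamSeries A hc hζ hne)

/-- its image in `K((q))` is `λ_c · w h_c` -/
theorem coeffMap_subtype_lamFricke {c : ZMod (N * r)} (hc : N ∣ c.val) {ζ : K} (hζ : ζ ^ r = 1)
    (hne : ζ ^ c.val ≠ 1) :
    coeffMap A.subtype (lamFricke A hc hζ hne) =
      HahnSeries.C ((1 - ζ ^ c.val) ^ 2) * frickeMu K N r c ζ := by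
  unfold lamFricke frickeMu
  rw [map_mul, Fermat.Agent.S28.PrimeCaseForm.coeffMap_qExpand,
    Fermat.Agent.S48.B.B1.RepAll1.coeffMap_wNorm, coeffMap_ofPowerSeries,
    map_subtype_lamSeries, map_mul, HahnSeries.ofPowerSeries_C]
  ring

/-- **its reduction is the constant `12 z` times the `q`-series of `(E₄E₆/Δ)(q^N)`** -/
theorem coeffMap_lamFricke {c : ZMod (N * r)} (hc : N ∣ c.val) {ζ : K} (hζ : ζ ^ r = 1)
    (hne : ζ ^ c.val ≠ 1)
    (hπ : π ⟨1 - ζ ^ c.val, sub_mem (one_mem A)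
      (pow_mem (mem_of_pow_eq_one A (NeZero.ne r) hζ) _)⟩ = 0) :
    coeffMap π (lamFricke A hc hζ hne) =
      HahnSeries.C (π ⟨12 * ζ ^ c.val, mul_mem (ofNat_mem A 12)
        (pow_mem (mem_of_pow_eq_one A (NeZero.ne r) hζ) _)⟩) * qExpand k N (wNorm k) := by
  unfold lamFricke
  rw [map_mul, Fermat.Agent.S28.PrimeCaseForm.coeffMap_qExpand,
    Fermat.Agent.S48.B.B1.RepAll1.coeffMap_wNorm, coeffMap_ofPowerSeries,
    map_lamSeries A π hc hζ hne hπ, HahnSeries.ofPowerSeries_C]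
  ring

end Integral

end Fermat.Agent.S43.LG1.Wr.RPart

end
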